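import Mathlib
import Fermat.Prelude.Def_ModularCurve_PeriodHomPair

/-!
# S21 (Eichler–Shimura), basic calculus on the upper half-plane

Primitives `F : ℍ → ℂ` of functions `f : ℍ → ℂ` are encoded, as in the prelude, by
`∀ τ : ℍ, HasDerivAt (F ∘ ofComplex) (f τ) τ`.
-/

set_option autoImplicit false

namespace Fermat.Agent.S21

open UpperHalfPlane ModularForm CongruenceSubgroup Filter Topology
open scoped MatrixGroups Manifold

/-- `F` is a (holomorphic) primitive of `f` on the upper half-plane. -/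
def IsPrimitive (F f : ℍ → ℂ) : Prop :=
  ∀ τ : ℍ, HasDerivAt (F ∘ ofComplex) (f τ) τ

theorem IsPrimitive.add {F f G g : ℍ → ℂ} (hF : IsPrimitive F f) (hG : IsPrimitive G g) :
    IsPrimitive (F + G) (f + g) := fun τ => by
  have := (hF τ).add (hG τ)
  exact this

theorem IsPrimitive.sub {F f G g : ℍ → ℂ} (hF : IsPrimitive F f) (hG : IsPrimitive G g) :
    IsPrimitive (F - G) (f - g) := fun τ => by
  have := (hF τ).sub (hG τ)
  exact this

theorem IsPrimitive.neg {F f : ℍ → ℂ} (hF : IsPrimitive F f) :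
    IsPrimitive (-F) (-f) := fun τ => by
  have := (hF τ).neg
  exact this

theorem IsPrimitive.const_mul {F f : ℍ → ℂ} (hF : IsPrimitive F f) (c : ℂ) :
    IsPrimitive (fun z => c * F z) (fun z => c * f z) := fun τ => by
  have := (hF τ).const_mul c
  exact this

theorem IsPrimitive.const_smul {F f : ℍ → ℂ} (hF : IsPrimitive F f) (c : ℂ) :
    IsPrimitive (c • F) (c • f) := fun τ => by
  have := (hF τ).const_smul c
  exact this

theorem isPrimitive_const (c : ℂ) : IsPrimitive (fun _ => c) (fun _ => 0) := fun τ => by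
  have : HasDerivAt (fun _ : ℂ => c) 0 (τ : ℂ) := hasDerivAt_const _ _
  exact this

theorem IsPrimitive.add_const {F f : ℍ → ℂ} (hF : IsPrimitive F f) (c : ℂ) :
    IsPrimitive (fun z => F z + c) f := fun τ => by
  have := (hF τ).add_const c
  exact this

theorem IsPrimitive.sub_const {F f : ℍ → ℂ} (hF : IsPrimitive F f) (c : ℂ) :
    IsPrimitive (fun z => F z - c) f := fun τ => by
  have := (hF τ).sub_const c
  exact this

theorem IsPrimitive.congr {F f g : ℍ → ℂ} (hF : IsPrimitive F f) (h : ∀ τ, f τ = g τ) :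
    IsPrimitive F g := fun τ => h τ ▸ hF τ

/-- The composite `F ∘ ofComplex` is differentiable on the open upper half-plane. -/
theorem IsPrimitive.differentiableOn {F f : ℍ → ℂ} (hF : IsPrimitive F f) :
    DifferentiableOn ℂ (F ∘ ofComplex) upperHalfPlaneSet := fun z hz => by
  have := hF ⟨z, hz⟩
  exact this.differentiableAt.differentiableWithinAt

theorem IsPrimitive.mdifferentiable {F f : ℍ → ℂ} (hF : IsPrimitive F f) : MDiff F :=
  UpperHalfPlane.mdifferentiable_iff.mpr hF.differentiableOn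

theorem IsPrimitive.continuous {F f : ℍ → ℂ} (hF : IsPrimitive F f) : Continuous F :=
  hF.mdifferentiable.continuous

/-- A primitive of `0` on `ℍ` is constant. -/
theorem IsPrimitive.eq_of_zero {F : ℍ → ℂ} (hF : IsPrimitive F (fun _ => 0)) (z w : ℍ) :
    F z = F w := by
  have hconv : Convex ℝ upperHalfPlaneSet := convex_halfSpace_im_gt 0
  have hd : DifferentiableOn ℂ (F ∘ ofComplex) upperHalfPlaneSet := hF.differentiableOn
  have h0 : ∀ x ∈ upperHalfPlaneSet,
      fderivWithin ℂ (F ∘ ofComplex) upperHalfPlaneSet x = 0 := by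
    intro x hx
    have hx' : HasDerivAt (F ∘ ofComplex) 0 x := hF ⟨x, hx⟩
    rw [fderivWithin_eq_fderiv (isOpen_upperHalfPlaneSet.uniqueDiffWithinAt hx)
      hx'.differentiableAt]
    ext
    simp [hx'.deriv]
  have := hconv.is_const_of_fderivWithin_eq_zero (𝕜 := ℂ) hd h0 z.2 w.2
  simpa using this

/-- Two primitives of the same function differ by a constant. -/
theorem IsPrimitive.sub_eq_sub {F G f : ℍ → ℂ} (hF : IsPrimitive F f) (hG : IsPrimitive G f)
    (z w : ℍ) : F z - G z = F w - G w := by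
  have h : IsPrimitive (F - G) (fun _ => 0) := (hF.sub hG).congr (fun τ => by simp)
  exact h.eq_of_zero z w

/-- Chain rule for the action of `GL(2, ℝ)⁺` on `ℍ`. -/
theorem IsPrimitive.comp_smul_GL {F f : ℍ → ℂ} (hF : IsPrimitive F f) {g : GL (Fin 2) ℝ}
    (hg : 0 < g.val.det) :
    IsPrimitive (fun w => F (g • w))
      (fun τ => f (g • τ) * ((g.val.det : ℂ) / denom g τ ^ 2)) := fun τ => by
  have h_smul : HasDerivAt (fun w ↦ ↑(g • ofComplex w) : ℂ → ℂ)
      ((g.val.det : ℂ) / denom g τ ^ 2) ↑τ := (hasStrictDerivAt_smul hg τ).hasDerivAt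
  have h_F : HasDerivAt (F ∘ ofComplex) (f (g • τ)) ((fun w ↦ ↑(g • ofComplex w) : ℂ → ℂ) ↑τ) := by
    simpa using hF (g • τ)
  have := h_F.comp (τ : ℂ) h_smul
  refine this.congr_of_eventuallyEq ?_
  filter_upwards with w
  simp [Function.comp]

/-- Chain rule for the action of `SL(2, ℤ)` on `ℍ`: if `F' = f` then `(F ∘ γ)' = f ∣[2] γ`. -/
theorem IsPrimitive.comp_smul {F f : ℍ → ℂ} (hF : IsPrimitive F f) (γ : SL(2, ℤ)) :
    IsPrimitive (fun w => F (γ • w)) (f ∣[(2 : ℤ)] γ) := by
  have hdet : (γ : GL (Fin 2) ℝ).val.det = 1 := by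
    rw [← Matrix.GeneralLinearGroup.val_det_apply]; simp
  have h := hF.comp_smul_GL (g := (γ : GL (Fin 2) ℝ)) (by rw [hdet]; exact one_pos)
  refine h.congr (fun τ => ?_)
  rw [ModularForm.SL_slash_apply, hdet]
  simp only [Complex.ofReal_one, one_div]
  rw [zpow_neg]
  rfl

end Fermat.Agent.S21
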