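import Mathlib
import Fermat.Prelude.Def_ModularCurve_PeriodHomPair
import Fermat.Agent.S21.Basic
import Fermat.Agent.S22.Cosets

/-!
# S21 (Eichler–Shimura), piece D: injectivity of `periodHomPair`

The core is a maximum-modulus argument: a holomorphic function `Φ` on `ℍ` whose increments under
`Γ₀(N)` are purely imaginary constants and which has a limit at every cusp is constant.
-/

set_option autoImplicit false

namespace Fermat.Agent.S21

open UpperHalfPlane CongruenceSubgroup Filter Topology Function ModularCurve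
  ModularCurve.Period
open scoped MatrixGroups Real ComplexConjugate

/-- `δ T^N δ⁻¹ ∈ Γ₀(N)` for every `δ ∈ SL(2, ℤ)`. -/
theorem conj_T_pow_mem_Gamma0 (N : ℕ) (δ : SL(2, ℤ)) :
    δ * ModularGroup.T ^ (N : ℤ) * δ⁻¹ ∈ Gamma0 N := by
  have h1 : ModularGroup.T ^ (N : ℤ) ∈ Gamma N :=
    ModularGroup_T_pow_mem_Gamma N N (dvd_refl _)
  have h2 : δ * ModularGroup.T ^ (N : ℤ) * δ⁻¹ ∈ Gamma N :=
    (Gamma_normal N).conj_mem _ h1 δ
  rw [Gamma_mem] at h2
  rw [Gamma0_mem]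
  exact h2.2.2.1

/-- Translation by `N` preserves `atImInfty`. -/
theorem tendsto_T_pow_smul_atImInfty (n : ℤ) :
    Tendsto (fun w : ℍ => ModularGroup.T ^ n • w) atImInfty atImInfty := by
  rw [atImInfty, tendsto_comap_iff]
  have : (UpperHalfPlane.im ∘ fun w : ℍ => ModularGroup.T ^ n • w) = UpperHalfPlane.im := by
    funext w
    rw [Function.comp_apply, modular_T_zpow_smul, UpperHalfPlane.vadd_im]
  rw [this]
  exact tendsto_comap

/-- If the `Γ₀(N)`-increments of `Φ` are constants and `Φ ∘ δ` has a limit at `i∞`, then `Φ ∘ δ` is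
`N`-periodic. -/
theorem comp_smul_T_pow_eq {N : ℕ} {Φ : ℍ → ℂ}
    (hinv : ∀ γ ∈ Gamma0 N, ∃ c : ℂ, ∀ z : ℍ, Φ (γ • z) - Φ z = c)
    (δ : SL(2, ℤ)) (hlim : ∃ L : ℂ, Tendsto (fun w : ℍ => Φ (δ • w)) atImInfty (𝓝 L)) (w : ℍ) :
    Φ (δ • (ModularGroup.T ^ (N : ℤ) • w)) = Φ (δ • w) := by
  obtain ⟨c, hc⟩ := hinv _ (conj_T_pow_mem_Gamma0 N δ)
  obtain ⟨L, hL⟩ := hlim
  have key : ∀ w : ℍ, Φ (δ • (ModularGroup.T ^ (N : ℤ) • w)) - Φ (δ • w) = c := by
    intro w
    have := hc (δ • w)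
    rwa [← mul_smul, inv_mul_cancel_right, mul_smul] at this
  have h1 : Tendsto (fun w : ℍ => Φ (δ • (ModularGroup.T ^ (N : ℤ) • w))) atImInfty (𝓝 L) :=
    hL.comp (tendsto_T_pow_smul_atImInfty N)
  have h2 : Tendsto (fun w : ℍ => Φ (δ • (ModularGroup.T ^ (N : ℤ) • w)) - Φ (δ • w))
      atImInfty (𝓝 (L - L)) := h1.sub hL
  have h3 : Tendsto (fun _ : ℍ => c) atImInfty (𝓝 (L - L)) := by
    refine h2.congr (fun w => key w)
  have hc0 : c = 0 := by
    have := tendsto_nhds_unique h3 tendsto_const_nhds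
    simpa using this.symm
  have := key w
  rw [hc0, sub_eq_zero] at this
  exact this

/-- The function `w ↦ exp (Φ (δ • w))`, transported to `ℂ` (junk value for `Im w ≤ 0`). -/
noncomputable def expComp (Φ : ℍ → ℂ) (δ : SL(2, ℤ)) : ℂ → ℂ :=
  fun w => Complex.exp (Φ (δ • ofComplex w))

theorem expComp_coe (Φ : ℍ → ℂ) (δ : SL(2, ℤ)) (z : ℍ) :
    expComp Φ δ (z : ℂ) = Complex.exp (Φ (δ • z)) := by
  rw [expComp, ofComplex_apply]

theorem expComp_periodic {N : ℕ} {Φ : ℍ → ℂ}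
    (hinv : ∀ γ ∈ Gamma0 N, ∃ c : ℂ, ∀ z : ℍ, Φ (γ • z) - Φ z = c)
    (δ : SL(2, ℤ)) (hlim : ∃ L : ℂ, Tendsto (fun w : ℍ => Φ (δ • w)) atImInfty (𝓝 L)) :
    Function.Periodic (expComp Φ δ) ((N : ℝ) : ℂ) := by
  intro w
  unfold expComp
  by_cases hw : 0 < w.im
  · have hw' : 0 < (w + ((N : ℝ) : ℂ)).im := by simpa using hw
    have : ofComplex (w + ((N : ℝ) : ℂ)) = ModularGroup.T ^ (N : ℤ) • ofComplex w := by
      rw [ofComplex_apply_of_im_pos hw, ofComplex_apply_of_im_pos hw']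
      ext
      rw [ModularGroup.coe_T_zpow_smul_eq]
      simp
    rw [this, comp_smul_T_pow_eq hinv δ hlim]
  · have hw' : (w + ((N : ℝ) : ℂ)).im ≤ 0 := by simpa using not_lt.mp hw
    rw [ofComplex_apply_eq_of_im_nonpos hw' (not_lt.mp hw)]

theorem expComp_differentiableAt {Φ φ : ℍ → ℂ} (hΦ : IsPrimitive Φ φ) (δ : SL(2, ℤ)) {w : ℂ}
    (hw : 0 < w.im) : DifferentiableAt ℂ (expComp Φ δ) w := by
  have h := (hΦ.comp_smul δ) ⟨w, hw⟩
  exact h.differentiableAt.cexp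

theorem expComp_tendsto {Φ : ℍ → ℂ} (δ : SL(2, ℤ)) {L : ℂ}
    (hL : Tendsto (fun w : ℍ => Φ (δ • w)) atImInfty (𝓝 L)) :
    Tendsto (expComp Φ δ) (comap Complex.im atTop) (𝓝 (Complex.exp L)) :=
  (Complex.continuous_exp.tendsto L).comp (hL.comp tendsto_comap_im_ofComplex)

theorem expComp_bounded {Φ : ℍ → ℂ} (δ : SL(2, ℤ))
    (hlim : ∃ L : ℂ, Tendsto (fun w : ℍ => Φ (δ • w)) atImInfty (𝓝 L)) :
    BoundedAtFilter (comap Complex.im atTop) (expComp Φ δ) := by
  obtain ⟨L, hL⟩ := hlim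
  exact (expComp_tendsto δ hL).isBigO_one ℝ

theorem expComp_eventually_differentiableAt {Φ φ : ℍ → ℂ} (hΦ : IsPrimitive Φ φ) (δ : SL(2, ℤ)) :
    ∀ᶠ z in comap Complex.im atTop, DifferentiableAt ℂ (expComp Φ δ) z := by
  filter_upwards [preimage_mem_comap (Ioi_mem_atTop 0)] with z hz
  exact expComp_differentiableAt hΦ δ hz

theorem norm_exp_smul_eq {N : ℕ} {Φ : ℍ → ℂ}
    (hinv : ∀ γ ∈ Gamma0 N, ∃ c : ℂ, c.re = 0 ∧ ∀ z : ℍ, Φ (γ • z) - Φ z = c)
    {γ : SL(2, ℤ)} (hγ : γ ∈ Gamma0 N) (z : ℍ) :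
    ‖Complex.exp (Φ (γ • z))‖ = ‖Complex.exp (Φ z)‖ := by
  obtain ⟨c, hc0, hc⟩ := hinv γ hγ
  rw [Complex.norm_exp, Complex.norm_exp]
  have h2 : Φ (γ • z) = Φ z + c := by rw [← hc z]; ring
  rw [h2, Complex.add_re, hc0, add_zero]

/-- Maximum modulus on `X₀(N)`: if `Φ` is holomorphic on `ℍ`, its `Γ₀(N)`-increments are purely
imaginary constants, and `Φ` has a limit at every cusp, then `exp ∘ Φ` is constant. -/
theorem exp_const_of_imaginary_increments {N : ℕ} [NeZero N] {Φ φ : ℍ → ℂ}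
    (hΦ : IsPrimitive Φ φ)
    (hinv : ∀ γ ∈ Gamma0 N, ∃ c : ℂ, c.re = 0 ∧ ∀ z : ℍ, Φ (γ • z) - Φ z = c)
    (hlim : ∀ δ : SL(2, ℤ), ∃ L : ℂ, Tendsto (fun w : ℍ => Φ (δ • w)) atImInfty (𝓝 L)) :
    ∃ C : ℂ, ∀ z : ℍ, Complex.exp (Φ z) = C := by
  have hN : (0 : ℝ) < N := Nat.cast_pos.mpr (NeZero.pos N)
  have hinv' : ∀ γ ∈ Gamma0 N, ∃ c : ℂ, ∀ z : ℍ, Φ (γ • z) - Φ z = c := fun γ hγ =>
    let ⟨c, _, hc⟩ := hinv γ hγ; ⟨c, hc⟩
  obtain ⟨R, hR⟩ := Fermat.Agent.S22.Gamma0_exists_coset_reps N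
  have hRne : R.Nonempty := by
    obtain ⟨γ, _, r, hr, _⟩ := hR 1
    exact ⟨r, hr⟩
  set K : SL(2, ℤ) → ℂ → ℂ := fun r => Function.Periodic.cuspFunction N (expComp Φ r) with hK
  have hper : ∀ r, Function.Periodic (expComp Φ r) ((N : ℝ) : ℂ) := fun r =>
    expComp_periodic hinv' r (hlim r)
  have hKdiff : ∀ r, DifferentiableOn ℂ (K r) (Metric.ball 0 1) := by
    intro r q hq
    rw [mem_ball_zero_iff] at hq
    apply DifferentiableAt.differentiableWithinAt
    rcases eq_or_ne q 0 with rfl | hq0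
    · exact Function.Periodic.differentiableAt_cuspFunction_zero hN (hper r)
        (expComp_eventually_differentiableAt hΦ r) (expComp_bounded r (hlim r))
    · have him := Function.Periodic.im_invQParam_pos_of_norm_lt_one hN hq hq0
      have := Function.Periodic.differentiableAt_cuspFunction hN.ne' (hper r)
        (expComp_differentiableAt hΦ r him)
      rwa [Function.Periodic.qParam_right_inv hN.ne' hq0] at this
  have hKeq : ∀ r (z : ℍ), K r (Function.Periodic.qParam N z) = Complex.exp (Φ (r • z)) := by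
    intro r z
    rw [hK]
    simp only
    rw [Function.Periodic.eq_cuspFunction hN.ne' (hper r), expComp_coe]
  set ρ : ℝ := Real.exp (-π / N) with hρ
  have hρ0 : 0 ≤ ρ := (Real.exp_pos _).le
  have hρ1 : ρ < 1 := by
    rw [hρ, Real.exp_lt_one_iff]
    exact div_neg_of_neg_of_pos (neg_lt_zero.mpr Real.pi_pos) hN
  have hmax : ∀ r, ∃ x ∈ Metric.closedBall (0 : ℂ) ρ,
      IsMaxOn (fun q => ‖K r q‖) (Metric.closedBall 0 ρ) x := by
    intro r
    exact (isCompact_closedBall (0 : ℂ) ρ).exists_isMaxOn (Metric.nonempty_closedBall.mpr hρ0)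
      ((hKdiff r).continuousOn.mono (Metric.closedBall_subset_ball hρ1)).norm
  choose x hx hxmax using hmax
  obtain ⟨r₀, hr₀, hr₀max⟩ := Finset.exists_max_image R (fun r => ‖K r (x r)‖) hRne
  have hbound : ∀ z : ℍ, ‖Complex.exp (Φ z)‖ ≤ ‖K r₀ (x r₀)‖ := by
    intro z
    obtain ⟨g, hg⟩ := ModularGroup.exists_one_half_le_im_smul z
    obtain ⟨γ, hγ, r, hr, hgr⟩ := hR g⁻¹
    have hz : z = γ • (r • (g • z)) := by
      rw [← mul_smul, ← mul_smul, ← hgr, inv_mul_cancel, one_smul]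
    have h1 : ‖Complex.exp (Φ z)‖ = ‖K r (Function.Periodic.qParam N ((g • z : ℍ) : ℂ))‖ := by
      rw [hKeq]
      conv_lhs => rw [hz]
      exact norm_exp_smul_eq hinv hγ _
    rw [h1]
    refine le_trans (hxmax r ?_) (hr₀max r hr)
    rw [mem_closedBall_zero_iff, Function.Periodic.norm_qParam, hρ]
    apply Real.exp_le_exp.mpr
    rw [UpperHalfPlane.coe_im]
    apply div_le_div_of_nonneg_right _ hN.le
    nlinarith [Real.pi_pos]
  have hne : ∀ q : ℂ, ‖q‖ < 1 → q ≠ 0 → ‖K r₀ q‖ ≤ ‖K r₀ (x r₀)‖ := by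
    intro q hq1 hq0
    have him := Function.Periodic.im_invQParam_pos_of_norm_lt_one hN hq1 hq0
    have := hKeq r₀ ⟨_, him⟩
    rw [UpperHalfPlane.coe_mk, Function.Periodic.qParam_right_inv hN.ne' hq0] at this
    rw [this]
    exact hbound _
  have hmaxball : IsMaxOn (norm ∘ K r₀) (Metric.ball 0 1) (x r₀) := by
    intro q hq
    have hq1 : ‖q‖ < 1 := mem_ball_zero_iff.mp hq
    show ‖K r₀ q‖ ≤ ‖K r₀ (x r₀)‖
    rcases eq_or_ne q 0 with rfl | hq0
    · have hcont : ContinuousAt (K r₀) 0 :=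
        ((hKdiff r₀).differentiableAt (Metric.ball_mem_nhds 0 one_pos)).continuousAt
      have ht : Tendsto (fun q => ‖K r₀ q‖) (𝓝[≠] 0) (𝓝 ‖K r₀ 0‖) :=
        (hcont.norm.tendsto).mono_left nhdsWithin_le_nhds
      refine le_of_tendsto ht ?_
      have hev : ∀ᶠ q in 𝓝[≠] (0 : ℂ), ‖q‖ < 1 := by
        apply nhdsWithin_le_nhds
        filter_upwards [Metric.ball_mem_nhds (0 : ℂ) one_pos] with q hq
        exact mem_ball_zero_iff.mp hq
      filter_upwards [self_mem_nhdsWithin, hev] with q hq0 hq1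
      exact hne q hq1 hq0
    · exact hne q hq1 hq0
  have hconst := Complex.eq_const_of_exists_max (hKdiff r₀)
    (Metric.closedBall_subset_ball hρ1 (hx r₀)) hmaxball
  refine ⟨K r₀ (x r₀), fun z => ?_⟩
  have := hKeq r₀ (r₀⁻¹ • z)
  rw [smul_inv_smul] at this
  rw [← this]
  refine hconst ?_
  rw [mem_ball_zero_iff]
  exact Function.Periodic.norm_qParam_lt_one hN (r₀⁻¹ • z).im_pos

/-- Core lemma: a holomorphic function on `ℍ` whose `Γ₀(N)`-increments are purely imaginary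
constants and which has a limit at every cusp has zero derivative. -/
theorem eq_zero_of_imaginary_increments {N : ℕ} [NeZero N] {Φ φ : ℍ → ℂ}
    (hΦ : IsPrimitive Φ φ)
    (hinv : ∀ γ ∈ Gamma0 N, ∃ c : ℂ, c.re = 0 ∧ ∀ z : ℍ, Φ (γ • z) - Φ z = c)
    (hlim : ∀ δ : SL(2, ℤ), ∃ L : ℂ, Tendsto (fun w : ℍ => Φ (δ • w)) atImInfty (𝓝 L))
    (τ : ℍ) : φ τ = 0 := by
  obtain ⟨C, hC⟩ := exp_const_of_imaginary_increments hΦ hinv hlim
  have h1 : HasDerivAt (fun w => Complex.exp ((Φ ∘ ofComplex) w))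
      (Complex.exp ((Φ ∘ ofComplex) τ) * φ τ) τ := (hΦ τ).cexp
  have h2 : HasDerivAt (fun w : ℂ => Complex.exp ((Φ ∘ ofComplex) w)) 0 τ := by
    have : (fun w : ℂ => Complex.exp ((Φ ∘ ofComplex) w)) = fun _ => C := by
      funext w; exact hC _
    rw [this]; exact hasDerivAt_const _ _
  have := h1.unique h2
  exact (mul_eq_zero.mp this).resolve_left (Complex.exp_ne_zero _)

theorem jConjSL_smul_J_smul (γ : SL(2, ℤ)) (z : ℍ) :
    jConjSL γ • (J • z) = J • (γ • z) := by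
  ext
  rw [coe_J_smul, coe_specialLinearGroup_apply, coe_specialLinearGroup_apply, coe_J_smul]
  simp only [jConjSL_coe, jConjMat_apply_zero_zero, jConjMat_apply_zero_one,
    jConjMat_apply_one_zero, jConjMat_apply_one_one, map_div₀, map_add, map_mul,
    map_intCast, algebraMap_int_eq, eq_intCast, Int.cast_neg, Complex.ofReal_neg,
    Complex.ofReal_intCast]
  rw [← neg_div]
  congr 1 <;> ring

theorem tendsto_J_smul_atImInfty :
    Tendsto (fun w : ℍ => J • w) atImInfty atImInfty := by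
  rw [atImInfty, tendsto_comap_iff]
  have : (UpperHalfPlane.im ∘ fun w : ℍ => J • w) = UpperHalfPlane.im := by
    funext w
    rw [Function.comp_apply, ← UpperHalfPlane.coe_im, coe_J_smul]
    simp
  rw [this]
  exact tendsto_comap

/-- `conj ∘ F ∘ (z ↦ -conj z)`. -/
noncomputable def conjRefl (F : ℍ → ℂ) : ℍ → ℂ := fun z => conj (F (J • z))

theorem IsPrimitive.conjRefl {F f : ℍ → ℂ} (hF : IsPrimitive F f) :
    IsPrimitive (conjRefl F) (fun z => -conj (f (J • z))) := by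
  intro τ
  have h1 : HasDerivAt (F ∘ ofComplex) (f (J • τ)) (-conj (τ : ℂ)) := by
    have := hF (J • τ)
    rwa [coe_J_smul] at this
  have h2 : HasDerivAt (fun u : ℂ => (F ∘ ofComplex) (-u)) (-f (J • τ)) (conj (τ : ℂ)) := by
    have hneg : HasDerivAt (fun u : ℂ => -u) (-1) (conj (τ : ℂ)) := hasDerivAt_neg _
    have := HasDerivAt.comp (conj (τ : ℂ)) h1 hneg
    rw [mul_neg_one] at this
    exact this
  have h3 := h2.conj_conj
  rw [Complex.conj_conj] at h3
  have h4 : (Fermat.Agent.S21.conjRefl F ∘ ofComplex) =ᶠ[𝓝 (τ : ℂ)]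
      (⇑(starRingEnd ℂ) ∘ (fun u : ℂ => (F ∘ ofComplex) (-u)) ∘ ⇑(starRingEnd ℂ)) := by
    filter_upwards [isOpen_upperHalfPlaneSet.mem_nhds τ.2] with w hw
    simp only [Function.comp_apply, Fermat.Agent.S21.conjRefl]
    rw [J_smul, ofComplex_apply_of_im_pos hw]
  have h5 := h3.congr_of_eventuallyEq h4
  simpa using h5

theorem conjRefl_smul_sub {N : ℕ} {F : ℍ → ℂ} (hF : IsEquivariantPrimitive (Gamma0 N) F)
    (γ : Gamma0 N) (z : ℍ) :
    conjRefl F ((γ : SL(2, ℤ)) • z) - conjRefl F z = conj (hF.period (jConjGamma0 N γ)) := by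
  unfold conjRefl
  rw [← jConjSL_smul_J_smul, ← map_sub]
  congr 1
  exact hF.sub_eq_period (jConjGamma0 N γ) (J • z)

theorem conjRefl_tendsto {F : ℍ → ℂ}
    (hlim : ∀ δ : SL(2, ℤ), ∃ L : ℂ, Tendsto (fun w : ℍ => F (δ • w)) atImInfty (𝓝 L))
    (δ : SL(2, ℤ)) :
    ∃ L : ℂ, Tendsto (fun w : ℍ => conjRefl F (δ • w)) atImInfty (𝓝 L) := by
  obtain ⟨L, hL⟩ := hlim (jConjSL δ)
  refine ⟨conj L, ?_⟩
  have h1 : Tendsto (fun w : ℍ => F (jConjSL δ • (J • w))) atImInfty (𝓝 L) :=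
    hL.comp tendsto_J_smul_atImInfty
  have h2 := (Complex.continuous_conj.tendsto L).comp h1
  refine h2.congr (fun w => ?_)
  simp only [Function.comp_apply, conjRefl, jConjSL_smul_J_smul]

/-- If the period homomorphism `p` of an equivariant primitive of `f` satisfies
`p γ + ε p (jγj) = 0` for all `γ`, with `ε = ±1`, then `f = 0`. -/
theorem eq_zero_of_period_add_eps_jConj_eq_zero (N : ℕ) [NeZero N] (f : CuspForm (Gamma0 N) 2)
    (F : ℍ → ℂ) (hF : HasEquivariantPrimitive N f F) (ε : ℂ) (hε : ε = 1 ∨ ε = -1)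
    (h : ∀ γ : Gamma0 N, hF.2.2.1.period γ + ε * hF.2.2.1.period (jConjGamma0 N γ) = 0) :
    f = 0 := by
  have hP : IsPrimitive F f := hF.1
  have hH := hP.conjRefl
  have hεc : conj ε = ε := by rcases hε with rfl | rfl <;> simp
  have hε2 : ε * ε = 1 := by rcases hε with rfl | rfl <;> simp
  -- `p (jγj) = -ε p γ`
  have hp' : ∀ γ : Gamma0 N, hF.2.2.1.period (jConjGamma0 N γ) = -ε * hF.2.2.1.period γ := by
    intro γ
    have := h γ
    linear_combination ε * this - (hF.2.2.1.period (jConjGamma0 N γ)) * hε2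
  -- the two auxiliary functions
  have hΦ₁ : IsPrimitive (fun z => F z + ε * conjRefl F z)
      (fun z => f z + ε * -conj (f (J • z))) := hP.add (hH.const_mul ε)
  have hΦ₂ : IsPrimitive (fun z => Complex.I * (F z - ε * conjRefl F z))
      (fun z => Complex.I * (f z - ε * -conj (f (J • z)))) :=
    (hP.sub (hH.const_mul ε)).const_mul Complex.I
  have hinc₁ : ∀ γ ∈ Gamma0 N, ∃ c : ℂ, c.re = 0 ∧
      ∀ z : ℍ, (F (γ • z) + ε * conjRefl F (γ • z)) - (F z + ε * conjRefl F z) = c := by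
    intro γ hγ
    set γ' : Gamma0 N := ⟨γ, hγ⟩
    refine ⟨hF.2.2.1.period γ' - conj (hF.2.2.1.period γ'), by simp, fun z => ?_⟩
    have e1 := hF.2.2.1.sub_eq_period γ' z
    have e2 := conjRefl_smul_sub hF.2.2.1 γ' z
    rw [hp' γ', map_mul, map_neg, hεc] at e2
    change F (γ • z) - F z = _ at e1
    change conjRefl F (γ • z) - conjRefl F z = _ at e2
    linear_combination e1 + ε * e2 - conj (hF.2.2.1.period γ') * hε2
  have hinc₂ : ∀ γ ∈ Gamma0 N, ∃ c : ℂ, c.re = 0 ∧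
      ∀ z : ℍ, Complex.I * (F (γ • z) - ε * conjRefl F (γ • z)) -
        Complex.I * (F z - ε * conjRefl F z) = c := by
    intro γ hγ
    set γ' : Gamma0 N := ⟨γ, hγ⟩
    refine ⟨Complex.I * (hF.2.2.1.period γ' + conj (hF.2.2.1.period γ')), by simp, fun z => ?_⟩
    have e1 := hF.2.2.1.sub_eq_period γ' z
    have e2 := conjRefl_smul_sub hF.2.2.1 γ' z
    rw [hp' γ', map_mul, map_neg, hεc] at e2
    change F (γ • z) - F z = _ at e1
    change conjRefl F (γ • z) - conjRefl F z = _ at e2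
    linear_combination Complex.I * e1 - Complex.I * ε * e2 +
      Complex.I * conj (hF.2.2.1.period γ') * hε2
  have hlimH := conjRefl_tendsto hF.2.2.2
  have hlim₁ : ∀ δ : SL(2, ℤ), ∃ L : ℂ,
      Tendsto (fun w : ℍ => F (δ • w) + ε * conjRefl F (δ • w)) atImInfty (𝓝 L) := by
    intro δ
    obtain ⟨L, hL⟩ := hF.2.2.2 δ
    obtain ⟨L', hL'⟩ := hlimH δ
    exact ⟨L + ε * L', hL.add (hL'.const_mul ε)⟩
  have hlim₂ : ∀ δ : SL(2, ℤ), ∃ L : ℂ,
      Tendsto (fun w : ℍ => Complex.I * (F (δ • w) - ε * conjRefl F (δ • w))) atImInfty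
        (𝓝 L) := by
    intro δ
    obtain ⟨L, hL⟩ := hF.2.2.2 δ
    obtain ⟨L', hL'⟩ := hlimH δ
    exact ⟨Complex.I * (L - ε * L'), (hL.sub (hL'.const_mul ε)).const_mul Complex.I⟩
  ext τ
  have z1 := eq_zero_of_imaginary_increments hΦ₁ hinc₁ hlim₁ τ
  have z2 := eq_zero_of_imaginary_increments hΦ₂ hinc₂ hlim₂ τ
  have z3 : f τ - ε * -conj (f (J • τ)) = 0 :=
    (mul_eq_zero.mp z2).resolve_left Complex.I_ne_zero
  rw [zero_apply]
  linear_combination (1 / 2 : ℂ) * z1 + (1 / 2 : ℂ) * z3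

/-- Piece D of S21: if every cusp form has an equivariant primitive and the period map is linear,
then `periodHomPair N` is injective. -/
theorem periodHomPair_injective_of (N : ℕ) [NeZero N]
    (hex : ∀ f : CuspForm (Gamma0 N) 2, ∃ F : ℍ → ℂ, HasEquivariantPrimitive N f F)
    (hlin : ExistsPeriodMapLinear N) : Function.Injective (periodHomPair N) := by
  obtain ⟨pml, hpml, hdef⟩ := periodHomPair_def N hlin
  rw [injective_iff_map_eq_zero]
  rintro ⟨f, g⟩ hfg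
  rw [hdef] at hfg
  -- evaluate at `γ` and at `jγj`
  have key : ∀ γ : Gamma0 N,
      (pml f (Additive.ofMul γ) + pml f (Additive.ofMul (jConjGamma0 N γ))) +
        (pml g (Additive.ofMul γ) - pml g (Additive.ofMul (jConjGamma0 N γ))) = 0 := by
    intro γ
    have := DFunLike.congr_fun hfg (Additive.ofMul γ)
    simpa using this
  have keyf : ∀ γ : Gamma0 N,
      pml f (Additive.ofMul γ) + pml f (Additive.ofMul (jConjGamma0 N γ)) = 0 := by
    intro γ
    have h1 := key γ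
    have h2 := key (jConjGamma0 N γ)
    rw [jConjGamma0_jConjGamma0] at h2
    linear_combination (1 / 2 : ℂ) * h1 + (1 / 2 : ℂ) * h2
  have keyg : ∀ γ : Gamma0 N,
      pml g (Additive.ofMul γ) - pml g (Additive.ofMul (jConjGamma0 N γ)) = 0 := by
    intro γ
    have h1 := key γ
    have h2 := key (jConjGamma0 N γ)
    rw [jConjGamma0_jConjGamma0] at h2
    linear_combination (1 / 2 : ℂ) * h1 - (1 / 2 : ℂ) * h2
  have hf0 : f = 0 := by
    obtain ⟨F, hF⟩ := hex f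
    obtain ⟨F₀, h₀, hF₀⟩ := periodMap_def N f hF
    refine eq_zero_of_period_add_eps_jConj_eq_zero N f F₀ h₀ 1 (Or.inl rfl) (fun γ => ?_)
    have := keyf γ
    rw [hpml f, hF₀] at this
    simpa using this
  have hg0 : g = 0 := by
    obtain ⟨G, hG⟩ := hex g
    obtain ⟨G₀, h₀, hG₀⟩ := periodMap_def N g hG
    refine eq_zero_of_period_add_eps_jConj_eq_zero N g G₀ h₀ (-1) (Or.inr rfl) (fun γ => ?_)
    have := keyg γ
    rw [hpml g, hG₀] at this
    simpa [sub_eq_add_neg] using this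
  rw [hf0, hg0]
  rfl

end Fermat.Agent.S21
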