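import Mathlib
import Fermat.Prelude.Def_ModularCurve_PeriodHomPair

/-!
# S21, piece C: periods of parabolic elements vanish

If `γ ∈ Γ₀(N)` has `tr(γ)² = 4`, then `γ` fixes a cusp `δ∞` (`δ ∈ SL₂(ℤ)`), i.e. `γ δ = δ β` with `β`
upper triangular, and the period `F(γ z) - F(z)` is the limit of `F(δ β w) - F(δ w)` as `w → i∞`,
which is `L - L = 0`.
-/

set_option autoImplicit false

namespace Fermat.Agent.S21

open UpperHalfPlane CongruenceSubgroup Filter Topology ModularCurve ModularCurve.Period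
open scoped MatrixGroups

/-- An element of `SL(2, ℤ)` with `tr² = 4` is conjugate (in `SL(2, ℤ)`) to an upper triangular
matrix. -/
theorem parabolic_exists_conj_upper (γ : SL(2, ℤ))
    (hγ : ((γ : SL(2, ℤ)) : Matrix (Fin 2) (Fin 2) ℤ).trace ^ 2 = 4) :
    ∃ δ β : SL(2, ℤ), β 1 0 = 0 ∧ γ * δ = δ * β := by
  have hdet : γ 0 0 * γ 1 1 - γ 0 1 * γ 1 0 = 1 := by
    have h := γ.det_coe
    rwa [Matrix.det_fin_two] at h
  have htr : (γ 0 0 + γ 1 1) ^ 2 = 4 := by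
    simpa [Matrix.trace_fin_two] using hγ
  by_cases hc : γ 1 0 = 0
  · exact ⟨1, γ, hc, by simp⟩
  · -- eigenvector direction `(a - d, 2c)`
    set g : ℤ := (Int.gcd (γ 0 0 - γ 1 1) (2 * γ 1 0) : ℤ) with hg
    have hg0 : g ≠ 0 := by
      intro h
      have h' : Int.gcd (γ 0 0 - γ 1 1) (2 * γ 1 0) = 0 := by
        rw [hg] at h
        exact_mod_cast h
      rw [Int.gcd_eq_zero_iff] at h'
      exact hc (by omega)
    obtain ⟨x, hx⟩ : g ∣ γ 0 0 - γ 1 1 := Int.gcd_dvd_left _ _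
    obtain ⟨y, hy⟩ : g ∣ 2 * γ 1 0 := Int.gcd_dvd_right _ _
    have hcop : IsCoprime x y := by
      obtain ⟨u, v, huv⟩ : ∃ u v : ℤ, g = (γ 0 0 - γ 1 1) * u + (2 * γ 1 0) * v :=
        ⟨_, _, Int.gcd_eq_gcd_ab _ _⟩
      refine ⟨u, v, ?_⟩
      have : g * (u * x + v * y) = g * 1 := by
        rw [mul_one]
        conv_rhs => rw [huv, hx, hy]
        ring
      exact mul_left_cancel₀ hg0 this
    obtain ⟨δ, hδ0, hδ1⟩ := hcop.exists_SL2_col 0
    refine ⟨δ, δ⁻¹ * γ * δ, ?_, by group⟩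
    -- compute the lower-left entry
    have key : g ^ 2 * (γ 1 0 * x ^ 2 + (γ 1 1 - γ 0 0) * x * y - γ 0 1 * y ^ 2) = 0 := by
      have e1 : g * x = γ 0 0 - γ 1 1 := hx.symm
      have e2 : g * y = 2 * γ 1 0 := hy.symm
      have : g ^ 2 * (γ 1 0 * x ^ 2 + (γ 1 1 - γ 0 0) * x * y - γ 0 1 * y ^ 2) =
          γ 1 0 * (g * x) ^ 2 + (γ 1 1 - γ 0 0) * (g * x) * (g * y) - γ 0 1 * (g * y) ^ 2 := by
        ring
      rw [this, e1, e2]
      linear_combination (-γ 1 0) * htr + 4 * γ 1 0 * hdet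
    have key' : γ 1 0 * x ^ 2 + (γ 1 1 - γ 0 0) * x * y - γ 0 1 * y ^ 2 = 0 := by
      rcases mul_eq_zero.mp key with h | h
      · exact absurd ((pow_eq_zero_iff two_ne_zero).mp h) hg0
      · exact h
    show ((δ⁻¹ * γ * δ : SL(2, ℤ)) : Matrix (Fin 2) (Fin 2) ℤ) 1 0 = 0
    simp only [Matrix.SpecialLinearGroup.coe_mul, Matrix.SpecialLinearGroup.coe_inv,
      Matrix.adjugate_fin_two, Matrix.mul_apply, Fin.sum_univ_two, Matrix.of_apply,
      Matrix.cons_val', Matrix.cons_val_zero, Matrix.cons_val_one, Matrix.cons_val_fin_one]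
    rw [hδ0, hδ1]
    linear_combination key'

/-- **Piece C**: periods of elements of trace `±2` vanish. -/
theorem period_eq_zero_of_trace_sq_eq_four (N : ℕ) [NeZero N] (f : CuspForm (Gamma0 N) 2) (F : ℍ → ℂ)
    (hF : ModularCurve.HasEquivariantPrimitive N f F) (γ : Gamma0 N)
    (hγ : ((γ : SL(2, ℤ)) : Matrix (Fin 2) (Fin 2) ℤ).trace ^ 2 = 4) : hF.2.2.1.period γ = 0 := by
  obtain ⟨δ, β, hβ, hγδ⟩ := parabolic_exists_conj_upper (γ : SL(2, ℤ)) hγ
  obtain ⟨L, hL⟩ := hF.2.2.2 δ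
  -- the period is the constant value of `w ↦ F (γ • δ • w) - F (δ • w)`
  have hconst : ∀ w : ℍ, F (δ • (β • w)) - F (δ • w) = hF.2.2.1.period γ := by
    intro w
    have := hF.2.2.1.sub_eq_period γ (δ • w)
    rw [← this, ← mul_smul, ← mul_smul, hγδ]
  have hβ' : Tendsto (fun w : ℍ => β • w) atImInfty atImInfty := by
    have h := tendsto_smul_atImInfty (g := (β : GL (Fin 2) ℝ)) (by simp [hβ])
    exact h
  have h1 : Tendsto (fun w : ℍ => F (δ • (β • w))) atImInfty (𝓝 L) := hL.comp hβ'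
  have h2 : Tendsto (fun w : ℍ => F (δ • (β • w)) - F (δ • w)) atImInfty (𝓝 (L - L)) := h1.sub hL
  have h3 : Tendsto (fun w : ℍ => F (δ • (β • w)) - F (δ • w)) atImInfty
      (𝓝 (hF.2.2.1.period γ)) := by
    simp only [hconst]
    exact tendsto_const_nhds
  have := tendsto_nhds_unique h3 h2
  rw [this, sub_self]

end Fermat.Agent.S21
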