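import Fermat.Agent.S21.Range
import Fermat.Agent.S21.Injective
import Fermat.Agent.S21.Parabolic
import Fermat.Prelude.Def_ModularCurve_GenusNumerics

/-!
# S21 assembly (helper21): everything except the dimension count

* `periodHomPair_injective` — piece D (helper75) fed with pieces A and B (unconditional).
* `result_of_finrank_le` — the S21 statement from `dim Hom_par(Γ₀(N), ℂ) ≤ 2 · dim S₂(Γ₀(N))`.
* `result_of_finrank_le_genus` — the same from the two rational (in)equalities that pieces E1
  (`finrank_parabolicHoms_le`) and S20 (`dim S₂ = genusFormula`) provide.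
-/

set_option autoImplicit false

open ModularCurve CongruenceSubgroup

namespace Fermat.Agent.S21

/-- The period-pair map is injective (unconditional). -/
theorem periodHomPair_injective (N : ℕ) [NeZero N] :
    Function.Injective (ModularCurve.periodHomPair N) :=
  periodHomPair_injective_of N (exists_hasEquivariantPrimitive N) (existsPeriodMapLinear N)

/-- S21 from the upper bound `dim Hom_par ≤ 2 dim S₂`. -/
theorem result_of_finrank_le (N : ℕ) [NeZero N]
    (hdim : Module.finrank ℂ (ModularCurve.Period.parabolicHoms ℂ (Gamma0 N) ℂ)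
      ≤ 2 * Module.finrank ℂ (CuspForm (Gamma0 N) 2)) :
    Function.Injective (ModularCurve.periodHomPair N)
      ∧ LinearMap.range (ModularCurve.periodHomPair N)
          = ModularCurve.Period.parabolicHoms ℂ (CongruenceSubgroup.Gamma0 N) ℂ :=
  result_of_injective_of_finrank_le N (periodHomPair_injective N) hdim

/-- S21 from E1 (`dim Hom_par ≤ 2 g`) and S20 (`dim S₂ = g`), both stated in `ℚ`. -/
theorem result_of_finrank_le_genus (N : ℕ) [NeZero N]
    (hE1 : (Module.finrank ℂ (ModularCurve.Period.parabolicHoms ℂ (Gamma0 N) ℂ) : ℚ)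
      ≤ 2 * ModularCurve.genusFormula N)
    (hS20 : (Module.finrank ℂ (CuspForm (Gamma0 N) 2) : ℚ) = ModularCurve.genusFormula N) :
    Function.Injective (ModularCurve.periodHomPair N)
      ∧ LinearMap.range (ModularCurve.periodHomPair N)
          = ModularCurve.Period.parabolicHoms ℂ (CongruenceSubgroup.Gamma0 N) ℂ := by
  refine result_of_finrank_le N ?_
  have h : (Module.finrank ℂ (ModularCurve.Period.parabolicHoms ℂ (Gamma0 N) ℂ) : ℚ)
      ≤ 2 * (Module.finrank ℂ (CuspForm (Gamma0 N) 2) : ℚ) := by
    rw [hS20]; exact hE1
  exact_mod_cast h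

end Fermat.Agent.S21
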