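import Fermat.Agent.S21.Basic
import Fermat.Agent.S22.Primitive
import Fermat.Agent.S22.Moebius

/-!
# S21 (Eichler–Shimura), pieces A and B

* `exists_hasEquivariantPrimitive` : every weight-2 cusp form on `Γ₀(N)` has an equivariant
  primitive in the sense of the prelude.
* `periodMap_eq` : the period map can be computed from any equivariant primitive.
* `existsPeriodMapLinear` : the period map is linear.
-/

set_option autoImplicit false

namespace Fermat.Agent.S21

open UpperHalfPlane ModularForm CongruenceSubgroup Filter Topology Matrix.SpecialLinearGroup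
open ModularCurve ModularCurve.Period
open scoped MatrixGroups Manifold Pointwise

theorem isPrimitive_iff_hasDerivH {F f : ℍ → ℂ} :
    IsPrimitive F f ↔ Fermat.Agent.S22.HasDerivH F f := Iff.rfl

theorem isArithmetic_conj_Gamma0 (N : ℕ) [NeZero N] (δ : SL(2, ℤ)) :
    (ConjAct.toConjAct (δ : GL (Fin 2) ℝ)⁻¹ •
      ((Gamma0 N : Subgroup SL(2, ℤ)) : Subgroup (GL (Fin 2) ℝ))).IsArithmetic := by
  have := Subgroup.IsArithmetic.conj
    ((Gamma0 N : Subgroup SL(2, ℤ)) : Subgroup (GL (Fin 2) ℝ)) (mapGL ℚ δ⁻¹)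
  have e : (mapGL ℚ δ⁻¹).map (Rat.castHom ℝ) = (δ : GL (Fin 2) ℝ)⁻¹ := by
    have e1 : ∀ g : SL(2, ℤ), (mapGL ℚ g).map (Rat.castHom ℝ) = mapGL ℝ g := by
      intro g
      ext i j
      simp
    rw [e1, map_inv]
    rfl
  rw [e] at this
  exact this

/-- For a cusp form `f` on `Γ₀(N)` and `δ ∈ SL(2, ℤ)`, the translate `f ∣[2] δ` is holomorphic,
periodic and zero at `i∞`. -/
theorem exists_cuspClass_slash (N : ℕ) [NeZero N] (f : CuspForm (Gamma0 N) 2) (δ : SL(2, ℤ)) :
    ∃ h : ℝ, 0 < h ∧ Fermat.Agent.S22.CuspClass h (⇑f ∣[(2 : ℤ)] δ) := by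
  have hA := isArithmetic_conj_Gamma0 N δ
  have := Fermat.Agent.S22.exists_cuspClass_of_cuspForm
    (CuspForm.translate f (δ : GL (Fin 2) ℝ))
  rw [CuspForm.coe_translate] at this
  exact this

/-- `f ∣[2] δ` has a primitive which tends to `0` at `i∞`. -/
theorem exists_isPrimitive_slash (N : ℕ) [NeZero N] (f : CuspForm (Gamma0 N) 2) (δ : SL(2, ℤ)) :
    ∃ F : ℍ → ℂ, IsPrimitive F (⇑f ∣[(2 : ℤ)] δ) ∧ Tendsto F atImInfty (𝓝 0) := by
  obtain ⟨h, hh, hc⟩ := exists_cuspClass_slash N f δ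
  obtain ⟨G, hG, hGd⟩ := hc.exists_primitive hh
  exact ⟨G, hGd, hG.zero⟩

/-- `f` has a primitive which tends to `0` at `i∞`. -/
theorem exists_isPrimitive (N : ℕ) [NeZero N] (f : CuspForm (Gamma0 N) 2) :
    ∃ F : ℍ → ℂ, IsPrimitive F f ∧ Tendsto F atImInfty (𝓝 0) := by
  obtain ⟨F, hF, h0⟩ := exists_isPrimitive_slash N f 1
  refine ⟨F, ?_, h0⟩
  have e : (⇑f ∣[(2 : ℤ)] (1 : SL(2, ℤ))) = ⇑f := SlashAction.slash_one _ _
  rwa [e] at hF

/-- Invariance of a cusp form on `Γ₀(N)` under the slash action. -/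
theorem slash_eq_self (N : ℕ) (f : CuspForm (Gamma0 N) 2) (γ : Gamma0 N) :
    (⇑f ∣[(2 : ℤ)] (γ : SL(2, ℤ))) = ⇑f :=
  SlashInvariantFormClass.slash_action_eq f _ ⟨γ, γ.2, rfl⟩

/-- A primitive of a cusp form on `Γ₀(N)` is an equivariant primitive. -/
theorem IsPrimitive.isEquivariantPrimitive {N : ℕ} (f : CuspForm (Gamma0 N) 2) {F : ℍ → ℂ}
    (hF : IsPrimitive F f) : IsEquivariantPrimitive (Gamma0 N) F := by
  intro γ
  refine ⟨F ((γ : SL(2, ℤ)) • UpperHalfPlane.I) - F UpperHalfPlane.I, fun z => ?_⟩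
  have h1 : IsPrimitive (fun w => F ((γ : SL(2, ℤ)) • w)) f := by
    have := hF.comp_smul (γ : SL(2, ℤ))
    rwa [slash_eq_self N f γ] at this
  exact h1.sub_eq_sub hF z UpperHalfPlane.I

/-- A primitive of a cusp form on `Γ₀(N)` has a limit at every cusp. -/
theorem IsPrimitive.exists_tendsto_smul {N : ℕ} [NeZero N] (f : CuspForm (Gamma0 N) 2)
    {F : ℍ → ℂ} (hF : IsPrimitive F f) (δ : SL(2, ℤ)) :
    ∃ L : ℂ, Tendsto (fun w : ℍ => F (δ • w)) atImInfty (𝓝 L) := by
  obtain ⟨G, hG, hG0⟩ := exists_isPrimitive_slash N f δ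
  have h1 : IsPrimitive (fun w => F (δ • w)) (⇑f ∣[(2 : ℤ)] δ) := hF.comp_smul δ
  refine ⟨F (δ • UpperHalfPlane.I) - G UpperHalfPlane.I, ?_⟩
  have hconst : ∀ w : ℍ, F (δ • w) = G w + (F (δ • UpperHalfPlane.I) - G UpperHalfPlane.I) := by
    intro w
    have := h1.sub_eq_sub hG w UpperHalfPlane.I
    linear_combination this
  have : Tendsto (fun w : ℍ => G w + (F (δ • UpperHalfPlane.I) - G UpperHalfPlane.I)) atImInfty
      (𝓝 (0 + (F (δ • UpperHalfPlane.I) - G UpperHalfPlane.I))) :=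
    hG0.add tendsto_const_nhds
  rw [zero_add] at this
  exact this.congr (fun w => (hconst w).symm)

/-- A primitive of a cusp form `f` on `Γ₀(N)` that tends to `0` at `i∞` is an equivariant
primitive in the sense of the prelude. -/
theorem hasEquivariantPrimitive_of_isPrimitive {N : ℕ} [NeZero N] (f : CuspForm (Gamma0 N) 2)
    {F : ℍ → ℂ} (hF : IsPrimitive F f) (h0 : Tendsto F atImInfty (𝓝 0)) :
    HasEquivariantPrimitive N f F :=
  ⟨hF, h0, hF.isEquivariantPrimitive f, fun δ => hF.exists_tendsto_smul f δ⟩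

theorem HasEquivariantPrimitive.isPrimitive {N : ℕ} {f : CuspForm (Gamma0 N) 2} {F : ℍ → ℂ}
    (hF : HasEquivariantPrimitive N f F) : IsPrimitive F f := hF.1

/-- **Piece A.** Every weight-2 cusp form on `Γ₀(N)` has an equivariant primitive. -/
theorem exists_hasEquivariantPrimitive (N : ℕ) [NeZero N] (f : CuspForm (Gamma0 N) 2) :
    ∃ F : ℍ → ℂ, HasEquivariantPrimitive N f F := by
  obtain ⟨F, hF, h0⟩ := exists_isPrimitive N f
  exact ⟨F, hasEquivariantPrimitive_of_isPrimitive f hF h0⟩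

/-- The period of an equivariant primitive only depends on its derivative. -/
theorem period_eq_of_isPrimitive {Γ : Subgroup SL(2, ℤ)} {F G f : ℍ → ℂ}
    (hF : IsEquivariantPrimitive Γ F) (hG : IsEquivariantPrimitive Γ G)
    (hFf : IsPrimitive F f) (hGf : IsPrimitive G f) (γ : Γ) : hF.period γ = hG.period γ := by
  have := hFf.sub_eq_sub hGf ((γ : SL(2, ℤ)) • UpperHalfPlane.I) UpperHalfPlane.I
  simp only [IsEquivariantPrimitive.period]
  linear_combination this

theorem periodHom_eq_of_isPrimitive {Γ : Subgroup SL(2, ℤ)} {F G f : ℍ → ℂ}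
    (hF : IsEquivariantPrimitive Γ F) (hG : IsEquivariantPrimitive Γ G)
    (hFf : IsPrimitive F f) (hGf : IsPrimitive G f) : hF.periodHom = hG.periodHom := by
  refine AddMonoidHom.ext fun γ => ?_
  exact period_eq_of_isPrimitive hF hG hFf hGf (Additive.toMul γ)

/-- The period map is the period homomorphism of any equivariant primitive. -/
theorem periodMap_eq {N : ℕ} (f : CuspForm (Gamma0 N) 2) {F : ℍ → ℂ}
    (hF : HasEquivariantPrimitive N f F) : periodMap N f = hF.2.2.1.periodHom := by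
  obtain ⟨F₀, h₀, e⟩ := periodMap_def N f hF
  rw [e]
  exact periodHom_eq_of_isPrimitive _ _ h₀.1 hF.1

theorem periodMap_apply {N : ℕ} (f : CuspForm (Gamma0 N) 2) {F : ℍ → ℂ}
    (hF : HasEquivariantPrimitive N f F) (γ : Gamma0 N) :
    periodMap N f (Additive.ofMul γ)
      = F ((γ : SL(2, ℤ)) • UpperHalfPlane.I) - F UpperHalfPlane.I := by
  rw [periodMap_eq f hF]
  rfl

theorem periodMap_add (N : ℕ) [NeZero N] (f g : CuspForm (Gamma0 N) 2) :
    periodMap N (f + g) = periodMap N f + periodMap N g := by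
  obtain ⟨F, hF⟩ := exists_hasEquivariantPrimitive N f
  obtain ⟨G, hG⟩ := exists_hasEquivariantPrimitive N g
  have hFG : IsPrimitive (F + G) (⇑(f + g)) := by
    have := IsPrimitive.add (F := F) (f := ⇑f) (G := G) (g := ⇑g) hF.1 hG.1
    exact this
  have h0 : Tendsto (F + G) atImInfty (𝓝 0) := by
    have := hF.2.1.add hG.2.1
    rwa [add_zero] at this
  have hS := hasEquivariantPrimitive_of_isPrimitive (f + g) hFG h0
  refine AddMonoidHom.ext fun γ => ?_
  obtain ⟨γ, rfl⟩ : ∃ γ' : Gamma0 N, Additive.ofMul γ' = γ := ⟨Additive.toMul γ, rfl⟩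
  rw [AddMonoidHom.add_apply, periodMap_apply _ hS, periodMap_apply _ hF, periodMap_apply _ hG]
  simp only [Pi.add_apply]
  ring

theorem periodMap_smul (N : ℕ) [NeZero N] (c : ℂ) (f : CuspForm (Gamma0 N) 2) :
    periodMap N (c • f) = c • periodMap N f := by
  obtain ⟨F, hF⟩ := exists_hasEquivariantPrimitive N f
  have hcF : IsPrimitive (c • F) (⇑(c • f)) := by
    have := IsPrimitive.const_smul (F := F) (f := ⇑f) hF.1 c
    exact this
  have h0 : Tendsto (c • F) atImInfty (𝓝 0) := by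
    have := hF.2.1.const_smul c
    rwa [smul_zero] at this
  have hS := hasEquivariantPrimitive_of_isPrimitive (c • f) hcF h0
  refine AddMonoidHom.ext fun γ => ?_
  obtain ⟨γ, rfl⟩ : ∃ γ' : Gamma0 N, Additive.ofMul γ' = γ := ⟨Additive.toMul γ, rfl⟩
  rw [AddMonoidHom.smul_apply, periodMap_apply _ hS, periodMap_apply _ hF]
  simp only [Pi.smul_apply, smul_eq_mul]
  ring

/-- The period map as a linear map. -/
noncomputable def periodMapLinear (N : ℕ) [NeZero N] :
    CuspForm (Gamma0 N) 2 →ₗ[ℂ] (Additive (Gamma0 N) →+ ℂ) where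
  toFun := periodMap N
  map_add' := periodMap_add N
  map_smul' := periodMap_smul N

@[simp] theorem periodMapLinear_apply (N : ℕ) [NeZero N] (f : CuspForm (Gamma0 N) 2) :
    periodMapLinear N f = periodMap N f := rfl

/-- **Piece B.** The period map is linear. -/
theorem existsPeriodMapLinear (N : ℕ) [NeZero N] : ExistsPeriodMapLinear N :=
  ⟨periodMapLinear N, fun _ => rfl⟩

/-- Any linear map agreeing with `periodMap` is `periodMapLinear`. -/
theorem eq_periodMapLinear (N : ℕ) [NeZero N]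
    (pml : CuspForm (Gamma0 N) 2 →ₗ[ℂ] (Additive (Gamma0 N) →+ ℂ))
    (h : ∀ f, pml f = periodMap N f) : pml = periodMapLinear N :=
  LinearMap.ext h

/-- Explicit formula for `periodHomPair`. -/
theorem periodHomPair_eq (N : ℕ) [NeZero N] :
    periodHomPair N = LinearMap.coprod
      ((LinearMap.id + charInvolution N ℂ ℂ) ∘ₗ periodMapLinear N)
      ((LinearMap.id - charInvolution N ℂ ℂ) ∘ₗ periodMapLinear N) := by
  obtain ⟨pml, hpml, e⟩ := periodHomPair_def N (existsPeriodMapLinear N)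
  rw [e, eq_periodMapLinear N pml hpml]

theorem periodHomPair_apply (N : ℕ) [NeZero N] (f g : CuspForm (Gamma0 N) 2) :
    periodHomPair N (f, g)
      = (periodMap N f + charInvolution N ℂ ℂ (periodMap N f))
        + (periodMap N g - charInvolution N ℂ ℂ (periodMap N g)) := by
  rw [periodHomPair_eq]
  simp [LinearMap.coprod_apply]

end Fermat.Agent.S21
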