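import Fermat.Agent.S21.ParBound
import Fermat.Agent.S20.Index
import Fermat.Agent.S20.FixedEll
import Fermat.Agent.S20.OrbitsT
import Fermat.Prelude.Def_ModularCurve_PeriodMap
import Fermat.Prelude.Def_ModularCurve_GenusNumerics

/-!
# S21, piece E1: `dim Hom_par(Γ₀(N), ℂ) ≤ 2 · genusFormula N`

The space of parabolic homomorphisms `Γ₀(N) → ℂ` is finite-dimensional of dimension at most
`2 + μ/6 - ν₂/2 - 2ν₃/3 - κ`.  This is the specialisation of `E1.abstract_bound` to
`G = SL(2,ℤ) = ⟨S, T⟩`, `S² = (ST)³ = -1`, combined with the counts B1–B4 of S20.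
-/

set_option autoImplicit false

open Matrix ModularGroup CongruenceSubgroup Module

open scoped MatrixGroups

namespace Fermat.Agent.S21

namespace E1

theorem S_mul_S_eq_neg_one : S * S = (-1 : SL(2, ℤ)) := by
  ext i j
  fin_cases i <;> fin_cases j <;> simp [coe_S]

theorem ST_pow_three_eq_neg_one : (S * T) ^ 3 = (-1 : SL(2, ℤ)) := by
  ext i j
  fin_cases i <;> fin_cases j <;>
    simp [coe_S, coe_T, pow_succ, Matrix.mul_apply, Fin.sum_univ_two]

theorem neg_one_mem_Gamma0 (N : ℕ) : (-1 : SL(2, ℤ)) ∈ Gamma0 N := by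
  rw [Gamma0_mem]
  simp

theorem trace_neg_one_sq :
    (((-1 : SL(2, ℤ)) : SL(2, ℤ)) : Matrix (Fin 2) (Fin 2) ℤ).trace ^ 2 = 4 := by
  simp

theorem trace_conj (x g : SL(2, ℤ)) :
    ((x⁻¹ * g * x : SL(2, ℤ)) : Matrix (Fin 2) (Fin 2) ℤ).trace =
      (g : Matrix (Fin 2) (Fin 2) ℤ).trace := by
  rw [Matrix.SpecialLinearGroup.coe_mul, Matrix.trace_mul_comm, ← Matrix.SpecialLinearGroup.coe_mul,
    mul_inv_cancel_left]

theorem trace_T_pow (n : ℕ) : ((T ^ n : SL(2, ℤ)) : Matrix (Fin 2) (Fin 2) ℤ).trace = 2 := by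
  rw [← zpow_natCast, coe_T_zpow]
  simp [Matrix.trace_fin_two]

end E1

/-- The natural-number form of the bound, in terms of the combinatorial data of
`SL(2,ℤ) ⧸ Γ₀(N)`. -/
theorem finrank_parabolicHoms_card_le (N : ℕ) [NeZero N] :
    Module.Finite ℂ (ModularCurve.Period.parabolicHoms ℂ (Gamma0 N) ℂ) ∧
      6 * finrank ℂ (ModularCurve.Period.parabolicHoms ℂ (Gamma0 N) ℂ) +
        3 * Nat.card {q : SL(2, ℤ) ⧸ Gamma0 N // S • q = q} +
        4 * Nat.card {q : SL(2, ℤ) ⧸ Gamma0 N // (S * T) • q = q} +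
        6 * Nat.card (MulAction.orbitRel.Quotient (Subgroup.zpowers T) (SL(2, ℤ) ⧸ Gamma0 N)) ≤
      Nat.card (SL(2, ℤ) ⧸ Gamma0 N) + 12 := by
  refine E1.abstract_bound (Gamma0 N) S T (-1) E1.S_mul_S_eq_neg_one E1.ST_pow_three_eq_neg_one
    (fun g => by simp) (E1.neg_one_mem_Gamma0 N) SpecialLinearGroup.SL2Z_generators
    (ModularCurve.Period.parabolicHoms ℂ (Gamma0 N) ℂ) ?_ ?_
  · intro φ hφ k hk
    refine hφ k ?_
    rw [hk]
    exact E1.trace_neg_one_sq
  · intro φ hφ k x n hk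
    refine hφ k ?_
    rw [hk, E1.trace_conj, E1.trace_T_pow]
    norm_num

/-- The space of parabolic homomorphisms `Γ₀(N) → ℂ` is finite-dimensional. -/
theorem finite_parabolicHoms (N : ℕ) [NeZero N] :
    Module.Finite ℂ (ModularCurve.Period.parabolicHoms ℂ (Gamma0 N) ℂ) :=
  (finrank_parabolicHoms_card_le N).1

/-- The bound in terms of the arithmetic functions of the genus formula. -/
theorem finrank_parabolicHoms_nat_le (N : ℕ) [NeZero N] :
    6 * finrank ℂ (ModularCurve.Period.parabolicHoms ℂ (Gamma0 N) ℂ) +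
        3 * ModularCurve.nuTwo N + 4 * ModularCurve.nuThree N + 6 * ModularCurve.cuspCount N ≤
      ModularCurve.dedekindPsi N + 12 := by
  have h := (finrank_parabolicHoms_card_le N).2
  rwa [Fermat.Agent.S20.card_fixed_S, Fermat.Agent.S20.card_fixed_ST,
    Fermat.Agent.S20.card_orbits_T, Fermat.Agent.S20.card_quot_Gamma0] at h

/-- **Piece E1**: `dim Hom_par(Γ₀(N), ℂ) ≤ 2 · genusFormula N`. -/
theorem finrank_parabolicHoms_le (N : ℕ) [NeZero N] :
    (Module.finrank ℂ (ModularCurve.Period.parabolicHoms ℂ (Gamma0 N) ℂ) : ℚ) ≤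
      2 * ModularCurve.genusFormula N := by
  have h := finrank_parabolicHoms_nat_le N
  have h' : ((6 * finrank ℂ (ModularCurve.Period.parabolicHoms ℂ (Gamma0 N) ℂ) +
        3 * ModularCurve.nuTwo N + 4 * ModularCurve.nuThree N + 6 * ModularCurve.cuspCount N : ℕ)
        : ℚ) ≤ ((ModularCurve.dedekindPsi N + 12 : ℕ) : ℚ) := Nat.cast_le.2 h
  push_cast at h'
  unfold ModularCurve.genusFormula
  linarith

end Fermat.Agent.S21
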