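import Fermat.Agent.S21.PermDim

/-!
# S21, piece E1 (part 3): the induced cocycle and the abstract dimension bound

For a subgroup `H ≤ G` and `φ : H → ℂ` a homomorphism we let `r : G ⧸ H → G` be a section and put
`c_φ(g)(q) = φ(r(q)⁻¹ g r(g⁻¹ q))`.  This is a 1-cocycle of `G` with values in `V = (G ⧸ H → ℂ)`.
-/

set_option autoImplicit false

noncomputable section

namespace Fermat.Agent.S21.E1

open Module

variable {G : Type*} [Group G] (H : Subgroup G)

theorem out_mul_mem (g : G) (q : G ⧸ H) :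
    (Quotient.out q)⁻¹ * (g * Quotient.out (g⁻¹ • q)) ∈ H := by
  rw [← QuotientGroup.eq, QuotientGroup.out_eq']
  have h1 : ((g * Quotient.out (g⁻¹ • q) : G) : G ⧸ H) = g • ((Quotient.out (g⁻¹ • q) : G) : G ⧸ H) :=
    rfl
  rw [h1, QuotientGroup.out_eq', smul_inv_smul]

/-- The element `r(q)⁻¹ g r(g⁻¹ q)` of `H`. -/
def kEl (g : G) (q : G ⧸ H) : H :=
  ⟨(Quotient.out q)⁻¹ * (g * Quotient.out (g⁻¹ • q)), out_mul_mem H g q⟩

theorem kEl_coe (g : G) (q : G ⧸ H) :
    (kEl H g q : G) = (Quotient.out q)⁻¹ * (g * Quotient.out (g⁻¹ • q)) := rfl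

theorem kEl_mul (g h : G) (q : G ⧸ H) : kEl H (g * h) q = kEl H g q * kEl H h (g⁻¹ • q) := by
  apply Subtype.ext
  rw [Subgroup.coe_mul, kEl_coe, kEl_coe, kEl_coe, mul_inv_rev, mul_smul]
  group

/-- If `g` acts trivially on `G ⧸ H` then `kEl g q` is a conjugate of `g`. -/
theorem kEl_coe_of_smul_eq {g : G} (hg : ∀ q : G ⧸ H, g • q = q) (q : G ⧸ H) :
    (kEl H g q : G) = (Quotient.out q)⁻¹ * g * Quotient.out q := by
  have : g⁻¹ • q = q := by
    conv_lhs => rw [← hg q]
    rw [inv_smul_smul]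
  rw [kEl_coe, this, mul_assoc]

/-- The cocycle attached to a homomorphism `φ : H → ℂ`. -/
def coc (φ : Additive H →+ ℂ) (g : G) : (G ⧸ H) → ℂ :=
  fun q => φ (Additive.ofMul (kEl H g q))

theorem coc_apply (φ : Additive H →+ ℂ) (g : G) (q : G ⧸ H) :
    coc H φ g q = φ (Additive.ofMul (kEl H g q)) := rfl

theorem coc_mul (φ : Additive H →+ ℂ) (g h : G) :
    coc H φ (g * h) = coc H φ g + rho g (coc H φ h) := by
  funext q
  rw [Pi.add_apply, rho_apply, coc_apply, coc_apply, coc_apply, kEl_mul, ofMul_mul, map_add]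

/-- `φ ↦ c_φ(g)` as a linear map. -/
def cocL (g : G) : (Additive H →+ ℂ) →ₗ[ℂ] ((G ⧸ H) → ℂ) where
  toFun φ := coc H φ g
  map_add' φ ψ := by
    funext q
    rfl
  map_smul' c φ := by
    funext q
    rfl

theorem cocL_apply (g : G) (φ : Additive H →+ ℂ) : cocL H g φ = coc H φ g := rfl

/-- If `g` acts trivially on `G ⧸ H` and `φ` kills all conjugates of `g` (which then lie in `H`),
then `c_φ(g) = 0`. -/
theorem coc_eq_zero_of_smul_eq (φ : Additive H →+ ℂ) {g : G} (hg : ∀ q : G ⧸ H, g • q = q)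
    (hφ : ∀ k : H, (∃ x : G, (k : G) = x⁻¹ * g * x) → φ (Additive.ofMul k) = 0) :
    coc H φ g = 0 := by
  funext q
  rw [coc_apply, Pi.zero_apply]
  exact hφ _ ⟨Quotient.out q, kEl_coe_of_smul_eq H hg q⟩

section general

variable {Q : Type*} [MulAction G Q]

/-- Abstract 1-cocycles with values in the permutation representation. -/
def IsCoc (C : G → (Q → ℂ)) : Prop := ∀ g h : G, C (g * h) = C g + rho g (C h)

theorem IsCoc.map_one {C : G → (Q → ℂ)} (hC : IsCoc C) : C 1 = 0 := by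
  have h := hC 1 1
  rw [mul_one, rho_one, LinearMap.id_apply] at h
  exact left_eq_add.1 h

theorem IsCoc.map_pow {C : G → (Q → ℂ)} (hC : IsCoc C) (g : G) (n : ℕ) :
    C (g ^ n) = nrm g n (C g) := by
  induction n with
  | zero => rw [pow_zero, hC.map_one, nrm_zero, LinearMap.zero_apply]
  | succ n ih => rw [pow_succ, hC, ih, nrm_succ, LinearMap.add_apply]

theorem IsCoc.eq_zero_of_closure {C : G → (Q → ℂ)} (hC : IsCoc C) {S : Set G}
    (hS : Subgroup.closure S = ⊤) (h0 : ∀ x ∈ S, C x = 0) (g : G) : C g = 0 := by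
  have hg : g ∈ Subgroup.closure S := by rw [hS]; exact Subgroup.mem_top g
  induction hg using Subgroup.closure_induction with
  | mem x hx => exact h0 x hx
  | one => exact hC.map_one
  | mul x y _ _ hx hy => rw [hC, hx, hy, map_zero, add_zero]
  | inv x _ hx =>
    have h := hC x⁻¹ x
    rw [inv_mul_cancel, hC.map_one, hx, map_zero, add_zero] at h
    exact h.symm

theorem isCoc_add {C D : G → (Q → ℂ)} (hC : IsCoc C) (hD : IsCoc D) :
    IsCoc (fun g => C g + D g) := by
  intro g h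
  show C (g * h) + D (g * h) = C g + D g + rho g (C h + D h)
  rw [hC, hD, map_add]
  abel

theorem isCoc_cobdry (v : Q → ℂ) : IsCoc (fun g : G => rho g v - v) := by
  intro g h
  show rho (g * h) v - v = rho g v - v + rho g (rho h v - v)
  rw [rho_mul_apply, map_sub]
  abel

end general

theorem isCoc_coc (φ : Additive H →+ ℂ) : IsCoc (coc H φ) := fun g h => coc_mul H φ g h

/-- The key injectivity statement: if `c_φ + ∂v` vanishes on a generating set, then `φ = 0` and
`v` is `G`-invariant. -/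
theorem eq_zero_of_coc_add_cobdry {S : Set G} (hS : Subgroup.closure S = ⊤)
    (φ : Additive H →+ ℂ) (v : (G ⧸ H) → ℂ)
    (h0 : ∀ x ∈ S, coc H φ x + (rho x v - v) = 0) :
    φ = 0 ∧ ∀ q : G ⧸ H, v q = v ((1 : G) : G ⧸ H) := by
  have hC : IsCoc (fun g : G => coc H φ g + (rho g v - v)) :=
    isCoc_add (isCoc_coc H φ) (isCoc_cobdry v)
  have hall : ∀ g : G, coc H φ g + (rho g v - v) = 0 := fun g =>
    hC.eq_zero_of_closure hS h0 g
  set q₀ : G ⧸ H := ((1 : G) : G ⧸ H) with hq₀
  have hr₀ : Quotient.out q₀ ∈ H := by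
    have h : ((Quotient.out q₀ : G) : G ⧸ H) = ((1 : G) : G ⧸ H) := QuotientGroup.out_eq' q₀
    rw [QuotientGroup.eq, mul_one] at h
    exact inv_mem_iff.1 h
  have hφ : φ = 0 := by
    refine AddMonoidHom.ext fun k => ?_
    obtain ⟨k, rfl⟩ : ∃ k' : H, Additive.ofMul k' = k := ⟨Additive.toMul k, rfl⟩
    rw [AddMonoidHom.zero_apply]
    have hk : (k : G)⁻¹ • q₀ = q₀ := by
      show (((k : G)⁻¹ * 1 : G) : G ⧸ H) = ((1 : G) : G ⧸ H)
      rw [QuotientGroup.eq]
      simp
    have h1 := congrFun (hall (k : G)) q₀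
    rw [Pi.add_apply, Pi.sub_apply, rho_apply, hk, sub_self, add_zero, Pi.zero_apply,
      coc_apply] at h1
    have h2 : kEl H (k : G) q₀ = (⟨Quotient.out q₀, hr₀⟩ : H)⁻¹ * k * ⟨Quotient.out q₀, hr₀⟩ := by
      apply Subtype.ext
      rw [kEl_coe, hk]
      simp only [Subgroup.coe_mul, Subgroup.coe_inv, mul_assoc]
    rw [h2, ofMul_mul, ofMul_mul, ofMul_inv, map_add, map_add, map_neg] at h1
    linear_combination h1
  refine ⟨hφ, ?_⟩
  have hinv : ∀ g : G, rho g v = v := by
    intro g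
    have h := hall g
    have hz : coc H φ g = 0 := by
      funext q
      rw [coc_apply, hφ, AddMonoidHom.zero_apply, Pi.zero_apply]
    rw [hz, zero_add] at h
    exact sub_eq_zero.1 h
  intro q
  induction q using QuotientGroup.induction_on with
  | H g =>
    have h := congrFun (hinv g⁻¹) q₀
    rw [rho_apply, inv_inv] at h
    have h2 : g • q₀ = ((g : G) : G ⧸ H) := by
      show (((g * 1 : G) : G) : G ⧸ H) = _
      rw [mul_one]
    rw [h2] at h
    exact h

end Fermat.Agent.S21.E1
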