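import Mathlib

/-!
# S21, piece E1: an abstract rank count

`A, B : P × V → V` linear, `range B ≤ W`, `A (ker B) ≤ K`, and the common kernel of `A`, `B` is
detected by one linear functional and meets `P × 0` trivially.  Then `P` is finite-dimensional
and `dim P + dim V ≤ dim W + dim K + 1`.
-/

set_option autoImplicit false

noncomputable section

namespace Fermat.Agent.S21.E1

open Module

theorem la_bound {V P : Type*} [AddCommGroup V] [Module ℂ V] [FiniteDimensional ℂ V]
    [AddCommGroup P] [Module ℂ P]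
    (A B : (P × V) →ₗ[ℂ] V) (K W : Submodule ℂ V) (ev : (P × V) →ₗ[ℂ] ℂ)
    (hB : ∀ x, B x ∈ W) (hA : ∀ x, B x = 0 → A x ∈ K)
    (h1 : ∀ x, A x = 0 → B x = 0 → x.1 = 0)
    (h2 : ∀ x, A x = 0 → B x = 0 → ev x = 0 → x = 0) :
    Module.Finite ℂ P ∧ finrank ℂ P + finrank ℂ V ≤ finrank ℂ W + finrank ℂ K + 1 := by
  have hinj : Function.Injective ((A.prod B).comp (LinearMap.inl ℂ P V)) := by
    rw [injective_iff_map_eq_zero]
    intro φ hφ
    have hA0 : A (φ, 0) = 0 := congrArg Prod.fst hφ
    have hB0 : B (φ, 0) = 0 := congrArg Prod.snd hφ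
    exact h1 (φ, 0) hA0 hB0
  have hfin : Module.Finite ℂ P := Module.Finite.of_injective _ hinj
  refine ⟨hfin, ?_⟩
  have e1 := LinearMap.finrank_range_add_finrank_ker B
  rw [Module.finrank_prod] at e1
  have e2 : finrank ℂ (LinearMap.range B) ≤ finrank ℂ W := by
    refine Submodule.finrank_mono ?_
    rintro _ ⟨x, rfl⟩
    exact hB x
  have e3 := LinearMap.finrank_range_add_finrank_ker (A.comp (LinearMap.ker B).subtype)
  have e4 : finrank ℂ (LinearMap.range (A.comp (LinearMap.ker B).subtype)) ≤ finrank ℂ K := by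
    refine Submodule.finrank_mono ?_
    rintro _ ⟨⟨x, hx⟩, rfl⟩
    exact hA x (LinearMap.mem_ker.1 hx)
  have e5 : finrank ℂ (LinearMap.ker (A.comp (LinearMap.ker B).subtype)) ≤ 1 := by
    have hev : Function.Injective (ev.comp ((LinearMap.ker B).subtype.comp
        (LinearMap.ker (A.comp (LinearMap.ker B).subtype)).subtype)) := by
      rw [injective_iff_map_eq_zero]
      rintro ⟨⟨x, hx⟩, hx'⟩ h0
      have hx1 : B x = 0 := LinearMap.mem_ker.1 hx
      have hx2 : A x = 0 := LinearMap.mem_ker.1 hx'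
      have h0' : ev x = 0 := h0
      have := h2 x hx2 hx1 h0'
      subst this
      rfl
    have := LinearMap.finrank_le_finrank_of_injective hev
    rwa [Module.finrank_self] at this
  omega

end Fermat.Agent.S21.E1
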