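import Fermat.Agent.S21.Cocycle
import Fermat.Agent.S21.LinAlg

/-!
# S21, piece E1 (part 4): the abstract dimension bound

`G` a group generated by `s, t` with `s² = (st)³ = z` central, `H ≤ G` of finite index containing
`z`, and `P` a space of homomorphisms `H → ℂ` killing `z` and all conjugates of powers of `t` lying
in `H`.  Then `6 dim P + 3 f₂ + 4 f₃ + 6 κ ≤ μ + 12`.
-/

set_option autoImplicit false

noncomputable section

namespace Fermat.Agent.S21.E1

open Module

variable {G : Type*} [Group G] (H : Subgroup G)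

/-- `(φ, v) ↦ c_φ(g) + (ρ_g v - v)`. -/
def psi (P : Submodule ℂ (Additive H →+ ℂ)) (g : G) :
    (P × ((G ⧸ H) → ℂ)) →ₗ[ℂ] ((G ⧸ H) → ℂ) :=
  ((cocL H g).comp P.subtype).coprod (rho g - LinearMap.id)

theorem psi_apply (P : Submodule ℂ (Additive H →+ ℂ)) (g : G) (x : P × ((G ⧸ H) → ℂ)) :
    psi H P g x = coc H (x.1 : Additive H →+ ℂ) g + (rho g x.2 - x.2) := rfl

theorem isCoc_psi (P : Submodule ℂ (Additive H →+ ℂ)) (x : P × ((G ⧸ H) → ℂ)) :
    IsCoc (fun g : G => psi H P g x) :=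
  isCoc_add (isCoc_coc H _) (isCoc_cobdry _)

theorem card_fix_one {Q : Type*} [MulAction G Q] :
    Nat.card {q : Q // (1 : G) • q = q} = Nat.card Q :=
  Nat.card_congr (Equiv.subtypeUnivEquiv fun q => one_smul G q)

/-- The number of orbits of `⟨t⟩` on `G ⧸ H`, computed with the instance for a general `G`-set,
agrees with the one computed with the instance specific to `G ⧸ H`. -/
theorem finrank_ker_nrm_add_orbits_le' [Finite (G ⧸ H)] {t : G} {m : ℕ} (hm0 : m ≠ 0) :
    finrank ℂ (LinearMap.ker (nrm t m : ((G ⧸ H) → ℂ) →ₗ[ℂ] ((G ⧸ H) → ℂ))) +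
      Nat.card (MulAction.orbitRel.Quotient (Subgroup.zpowers t) (G ⧸ H)) ≤ Nat.card (G ⧸ H) :=
  finrank_ker_nrm_add_orbits_le (Q := G ⧸ H) (g := t) (n := m) hm0

theorem abstract_bound [Finite (G ⧸ H)] (s t z : G) (hs : s * s = z) (hu : (s * t) ^ 3 = z)
    (hz : ∀ g : G, g * z = z * g) (hzH : z ∈ H)
    (hgen : Subgroup.closure ({s, t} : Set G) = ⊤)
    (P : Submodule ℂ (Additive H →+ ℂ))
    (hPz : ∀ φ ∈ P, ∀ k : H, (k : G) = z → φ (Additive.ofMul k) = 0)
    (hPt : ∀ φ ∈ P, ∀ k : H, ∀ (x : G) (n : ℕ), (k : G) = x⁻¹ * t ^ n * x →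
      φ (Additive.ofMul k) = 0) :
    Module.Finite ℂ P ∧
      6 * finrank ℂ P + 3 * Nat.card {q : G ⧸ H // s • q = q} +
        4 * Nat.card {q : G ⧸ H // (s * t) • q = q} +
        6 * Nat.card (MulAction.orbitRel.Quotient (Subgroup.zpowers t) (G ⧸ H)) ≤
      Nat.card (G ⧸ H) + 12 := by
  classical
  cases nonempty_fintype (G ⧸ H)
  -- `z` acts trivially
  have hzQ : ∀ q : G ⧸ H, z • q = q := by
    intro q
    induction q using QuotientGroup.induction_on with
    | H g =>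
      show (((z * g : G)) : G ⧸ H) = (g : G ⧸ H)
      rw [QuotientGroup.eq, ← hz g, mul_inv_rev, inv_mul_cancel_right]
      exact inv_mem hzH
  have hs2 : ∀ q : G ⧸ H, s ^ 2 • q = q := by rw [pow_two, hs]; exact hzQ
  have hu3 : ∀ q : G ⧸ H, (s * t) ^ 3 • q = q := by rw [hu]; exact hzQ
  -- the order of `t` on `Q`
  obtain ⟨m, hm0, hm⟩ : ∃ m : ℕ, m ≠ 0 ∧ ∀ q : G ⧸ H, t ^ m • q = q := by
    obtain ⟨m, hmpos, hm⟩ := isOfFinOrder_iff_pow_eq_one.1
      (isOfFinOrder_of_finite (MulAction.toPermHom G (G ⧸ H) t))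
    refine ⟨m, hmpos.ne', fun q => ?_⟩
    rw [← map_pow] at hm
    have := congrArg (fun σ : Equiv.Perm (G ⧸ H) => σ q) hm
    simpa using this
  -- vanishing of the cocycles at `z` and `t ^ m`
  have hCz : ∀ x : P × ((G ⧸ H) → ℂ), psi H P z x = 0 := by
    intro x
    rw [psi_apply, rho_eq_id_of_smul_eq hzQ, LinearMap.id_apply, sub_self, add_zero]
    refine coc_eq_zero_of_smul_eq H _ hzQ ?_
    rintro k ⟨y, hy⟩
    refine hPz _ x.1.2 k ?_
    rw [hy, mul_assoc, ← hz y, inv_mul_cancel_left]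
  have hCt : ∀ x : P × ((G ⧸ H) → ℂ), psi H P (t ^ m) x = 0 := by
    intro x
    rw [psi_apply, rho_eq_id_of_smul_eq hm, LinearMap.id_apply, sub_self, add_zero]
    refine coc_eq_zero_of_smul_eq H _ hm ?_
    rintro k ⟨y, hy⟩
    exact hPt _ x.1.2 k y m hy
  -- kernel computation
  have hkey : ∀ x : P × ((G ⧸ H) → ℂ), psi H P s x = 0 → psi H P t x = 0 →
      x.1 = 0 ∧ ∀ q : G ⧸ H, x.2 q = x.2 ((1 : G) : G ⧸ H) := by
    intro x hxs hxt
    have := eq_zero_of_coc_add_cobdry H hgen (x.1 : Additive H →+ ℂ) x.2 (by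
      intro y hy
      rcases hy with rfl | hy
      · exact hxs
      · rw [Set.mem_singleton_iff] at hy
        subst hy
        exact hxt)
    exact ⟨Subtype.ext this.1, this.2⟩
  -- the abstract rank count
  have hLA := la_bound (psi H P s) (psi H P t)
    (LinearMap.ker (nrm s 2 : ((G ⧸ H) → ℂ) →ₗ[ℂ] ((G ⧸ H) → ℂ)) ⊓
        LinearMap.ker (nrm (s * t) 3 : ((G ⧸ H) → ℂ) →ₗ[ℂ] ((G ⧸ H) → ℂ)))
    (LinearMap.ker (nrm t m : ((G ⧸ H) → ℂ) →ₗ[ℂ] ((G ⧸ H) → ℂ)))
    ((LinearMap.proj (((1 : G) : G ⧸ H))).comp (LinearMap.snd ℂ P ((G ⧸ H) → ℂ)))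
    (by
      intro x
      rw [LinearMap.mem_ker, ← (isCoc_psi H P x).map_pow t m]
      exact hCt x)
    (by
      intro x hx
      refine ⟨?_, ?_⟩
      · show psi H P s x ∈ LinearMap.ker (nrm s 2)
        rw [LinearMap.mem_ker, ← (isCoc_psi H P x).map_pow s 2, pow_two, hs]
        exact hCz x
      · show psi H P s x ∈ LinearMap.ker (nrm (s * t) 3)
        have h1 : psi H P (s * t) x = psi H P s x := by
          have := isCoc_psi H P x s t
          simp only [hx, map_zero, add_zero] at this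
          exact this
        rw [LinearMap.mem_ker, ← h1, ← (isCoc_psi H P x).map_pow (s * t) 3, hu]
        exact hCz x)
    (fun x hxs hxt => (hkey x hxs hxt).1)
    (by
      intro x hxs hxt h0
      have h0' : x.2 ((1 : G) : G ⧸ H) = 0 := h0
      obtain ⟨h1, h2⟩ := hkey x hxs hxt
      refine Prod.ext h1 ?_
      funext q
      rw [h2 q, h0']
      rfl)
  refine ⟨hLA.1, ?_⟩
  have hL := hLA.2
  rw [Module.finrank_fintype_fun_eq_card, ← Nat.card_eq_fintype_card] at hL
  -- the dimension counts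
  have hF := Submodule.finrank_sup_add_finrank_inf_eq
    (LinearMap.ker (nrm s 2 : ((G ⧸ H) → ℂ) →ₗ[ℂ] ((G ⧸ H) → ℂ)))
    (LinearMap.ker (nrm (s * t) 3 : ((G ⧸ H) → ℂ) →ₗ[ℂ] ((G ⧸ H) → ℂ)))
  have hgen' : Subgroup.closure ({s, s * t} : Set G) = ⊤ := by
    rw [eq_top_iff, ← hgen, Subgroup.closure_le]
    intro y hy
    rcases hy with rfl | hy
    · exact Subgroup.subset_closure (Set.mem_insert _ _)
    · rw [Set.mem_singleton_iff] at hy
      subst hy
      have h2 : s⁻¹ * (s * y) ∈ Subgroup.closure ({s, s * y} : Set G) :=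
        mul_mem (inv_mem (Subgroup.subset_closure (Set.mem_insert _ _)))
          (Subgroup.subset_closure (Set.mem_insert_of_mem _ rfl))
      rwa [inv_mul_cancel_left] at h2
  have hG := card_le_finrank_sup_add_one (Q := G ⧸ H) hs2 hu3 hgen'
  have hH := finrank_ker_nrm (Q := G ⧸ H) (g := s) (n := 2) two_ne_zero hs2
  rw [Finset.sum_range_succ, Finset.sum_range_one, pow_zero, pow_one, card_fix_one] at hH
  have hI := finrank_ker_nrm (Q := G ⧸ H) (g := s * t) (n := 3) three_ne_zero hu3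
  have hfix : Nat.card {q : G ⧸ H // (s * t) ^ 2 • q = q} =
      Nat.card {q : G ⧸ H // (s * t) • q = q} := by
    refine Nat.card_congr (Equiv.subtypeEquivRight fun q => ?_)
    constructor
    · intro h
      have h3 := hu3 q
      rw [pow_succ', mul_smul, h] at h3
      exact h3
    · intro h
      rw [pow_two, mul_smul, h, h]
  rw [Finset.sum_range_succ, Finset.sum_range_succ, Finset.sum_range_one, pow_zero, pow_one,
    card_fix_one, hfix] at hI
  have hJ := finrank_ker_nrm_add_orbits_le' H (t := t) (m := m) hm0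
  omega

end Fermat.Agent.S21.E1
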