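import Fermat.Agent.S21.PermRep

/-!
# S21, piece E1 (part 2): dimension counts for the permutation representation

* `trace_rho` : the trace of `ρ g` is the number of fixed points of `g`;
* `finrank_ker_nrm` : `n · dim ker (∑_{j<n} ρ(g^j)) + ∑_{j<n} #Fix(g^j) = n · #Q` if `g^n` acts
  trivially;
* `finrank_ker_nrm_add_orbits_le` : `dim ker (∑_{j<n} ρ(g^j)) + #(orbits of g) ≤ #Q`;
* `card_le_finrank_sup_add_one` : `#Q ≤ dim (ker N_s + ker N_u) + 1` if `s, u` generate a
  transitive group.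
-/

set_option autoImplicit false

noncomputable section

namespace Fermat.Agent.S21.E1

open Module

variable {G : Type*} [Group G] {Q : Type*} [MulAction G Q]

/-- The trace of `ρ g` is the number of fixed points of `g`. -/
theorem trace_rho [Finite Q] (g : G) :
    LinearMap.trace ℂ (Q → ℂ) (rho g) = (Nat.card {q : Q // g • q = q} : ℂ) := by
  classical
  cases nonempty_fintype Q
  rw [LinearMap.trace_eq_matrix_trace ℂ (Pi.basisFun ℂ Q) (rho g), Matrix.trace]
  simp only [Matrix.diag_apply, LinearMap.toMatrix_apply, Pi.basisFun_repr, Pi.basisFun_apply,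
    rho_apply, Pi.single_apply]
  rw [Finset.sum_boole, Nat.card_eq_fintype_card, Fintype.card_subtype]
  congr 2
  ext q
  simp only [Finset.mem_filter, Finset.mem_univ, true_and]
  rw [inv_smul_eq_iff]
  exact eq_comm

/-- `n · dim ker N + ∑_{j<n} #Fix(g^j) = n · #Q` for `N = ∑_{j<n} ρ(g^j)`, if `g^n` acts
trivially. -/
theorem finrank_ker_nrm [Finite Q] {g : G} {n : ℕ} (hn : n ≠ 0) (hg : ∀ q : Q, g ^ n • q = q) :
    n * finrank ℂ (LinearMap.ker (nrm g n : (Q → ℂ) →ₗ[ℂ] (Q → ℂ))) +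
      ∑ j ∈ Finset.range n, Nat.card {q : Q // g ^ j • q = q} = n * Nat.card Q := by
  classical
  cases nonempty_fintype Q
  have hn' : (n : ℂ) ≠ 0 := Nat.cast_ne_zero.2 hn
  set e : (Q → ℂ) →ₗ[ℂ] (Q → ℂ) := (n : ℂ)⁻¹ • nrm g n with he
  have hidem : IsIdempotentElem e := by
    refine LinearMap.ext fun v => ?_
    show e (e v) = e v
    simp only [he, LinearMap.smul_apply, map_smul, nrm_nrm hg]
    rw [smul_smul, smul_smul]
    congr 1
    field_simp
  have hker : LinearMap.ker e = LinearMap.ker (nrm g n : (Q → ℂ) →ₗ[ℂ] (Q → ℂ)) := by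
    ext v
    simp only [LinearMap.mem_ker, he, LinearMap.smul_apply, smul_eq_zero, inv_eq_zero, hn',
      false_or]
  have htr : LinearMap.trace ℂ (Q → ℂ) e = (finrank ℂ (LinearMap.range e) : ℂ) :=
    (LinearMap.IsIdempotentElem.isProj_range e hidem).trace
  have htr2 : LinearMap.trace ℂ (Q → ℂ) e =
      (n : ℂ)⁻¹ * ∑ j ∈ Finset.range n, (Nat.card {q : Q // g ^ j • q = q} : ℂ) := by
    rw [he, map_smul, nrm, map_sum, smul_eq_mul]
    simp only [trace_rho]
  have hrn := LinearMap.finrank_range_add_finrank_ker e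
  rw [hker, Module.finrank_fintype_fun_eq_card, ← Nat.card_eq_fintype_card] at hrn
  have h3 : (n : ℂ) * (finrank ℂ (LinearMap.range e) : ℂ) =
      ∑ j ∈ Finset.range n, (Nat.card {q : Q // g ^ j • q = q} : ℂ) := by
    rw [← htr, htr2, ← mul_assoc, mul_inv_cancel₀ hn', one_mul]
  have h4 : n * finrank ℂ (LinearMap.range e) =
      ∑ j ∈ Finset.range n, Nat.card {q : Q // g ^ j • q = q} := by
    exact_mod_cast h3
  rw [← h4, ← hrn]
  ring

/-- `dim ker N + #(orbits of ⟨g⟩) ≤ #Q`. -/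
theorem finrank_ker_nrm_add_orbits_le [Finite Q] {g : G} {n : ℕ} (hn : n ≠ 0) :
    finrank ℂ (LinearMap.ker (nrm g n : (Q → ℂ) →ₗ[ℂ] (Q → ℂ))) +
      Nat.card (MulAction.orbitRel.Quotient (Subgroup.zpowers g) Q) ≤ Nat.card Q := by
  classical
  cases nonempty_fintype Q
  have hn' : (n : ℂ) ≠ 0 := Nat.cast_ne_zero.2 hn
  let O := MulAction.orbitRel.Quotient (Subgroup.zpowers g) Q
  let mk : Q → O := fun q => Quotient.mk'' q
  have hmk : Function.Surjective mk := Quotient.mk''_surjective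
  have : Finite O := Finite.of_surjective mk hmk
  cases nonempty_fintype O
  let ι : (O → ℂ) →ₗ[ℂ] (Q → ℂ) := LinearMap.funLeft ℂ ℂ mk
  have hι : Function.Injective ι := LinearMap.funLeft_injective_of_surjective ℂ ℂ mk hmk
  have hmk_pow : ∀ (j : ℕ) (q : Q), mk ((g ^ j)⁻¹ • q) = mk q := by
    intro j q
    refine Quotient.sound' ?_
    show (MulAction.orbitRel (Subgroup.zpowers g) Q) _ _
    rw [MulAction.orbitRel_apply]
    exact ⟨⟨(g ^ j)⁻¹, inv_mem (pow_mem (Subgroup.mem_zpowers g) j)⟩, rfl⟩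
  have hdisj : LinearMap.range ι ⊓ LinearMap.ker (nrm g n : (Q → ℂ) →ₗ[ℂ] (Q → ℂ)) = ⊥ := by
    rw [eq_bot_iff]
    rintro v ⟨⟨f, rfl⟩, hv⟩
    rw [SetLike.mem_coe, LinearMap.mem_ker] at hv
    rw [Submodule.mem_bot]
    have h1 : nrm g n (ι f) = (n : ℂ) • ι f := by
      funext q
      rw [nrm_apply, Finset.sum_apply]
      simp only [rho_apply, ι, LinearMap.funLeft_apply, hmk_pow, Finset.sum_const,
        Finset.card_range, Pi.smul_apply, smul_eq_mul, nsmul_eq_mul]
    rw [hv] at h1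
    exact (smul_eq_zero.1 h1.symm).resolve_left hn'
  have h2 := Submodule.finrank_sup_add_finrank_inf_eq (LinearMap.range ι)
    (LinearMap.ker (nrm g n : (Q → ℂ) →ₗ[ℂ] (Q → ℂ)))
  rw [hdisj, finrank_bot, add_zero, LinearMap.finrank_range_of_inj hι,
    Module.finrank_fintype_fun_eq_card, ← Nat.card_eq_fintype_card] at h2
  have h3 : finrank ℂ ↥(LinearMap.range ι ⊔ LinearMap.ker (nrm g n : (Q → ℂ) →ₗ[ℂ] (Q → ℂ))) ≤
      finrank ℂ (Q → ℂ) := Submodule.finrank_le _
  rw [Module.finrank_fintype_fun_eq_card, ← Nat.card_eq_fintype_card] at h3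
  show finrank ℂ (LinearMap.ker (nrm g n : (Q → ℂ) →ₗ[ℂ] (Q → ℂ))) + Nat.card O ≤ Nat.card Q
  omega

/-- If `s`, `u` generate `G`, `G` acts transitively on `Q`, and `s^m`, `u^n` act trivially, then
`#Q ≤ dim (ker N_s + ker N_u) + 1`. -/
theorem card_le_finrank_sup_add_one [Finite Q] [MulAction.IsPretransitive G Q] {s u : G}
    {m n : ℕ} (hs : ∀ q : Q, s ^ m • q = q) (hu : ∀ q : Q, u ^ n • q = q)
    (hgen : Subgroup.closure ({s, u} : Set G) = ⊤) :
    Nat.card Q ≤ finrank ℂ ↥(LinearMap.ker (nrm s m : (Q → ℂ) →ₗ[ℂ] (Q → ℂ)) ⊔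
      LinearMap.ker (nrm u n : (Q → ℂ) →ₗ[ℂ] (Q → ℂ))) + 1 := by
  classical
  cases nonempty_fintype Q
  set W : Submodule ℂ (Q → ℂ) := LinearMap.ker (nrm s m : (Q → ℂ) →ₗ[ℂ] (Q → ℂ)) ⊔
      LinearMap.ker (nrm u n : (Q → ℂ) →ₗ[ℂ] (Q → ℂ)) with hW
  -- every `ρ_g v - v` lies in `W`
  have h1 : ∀ (g : G) (v : Q → ℂ), rho g v - v ∈ W := by
    intro g
    have hg : g ∈ Subgroup.closure ({s, u} : Set G) := by rw [hgen]; exact Subgroup.mem_top g
    induction hg using Subgroup.closure_induction with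
    | mem x hx =>
      intro v
      rcases hx with rfl | hx
      · refine Submodule.mem_sup_left ?_
        rw [LinearMap.mem_ker, nrm_sub, rho_eq_id_of_smul_eq hs, LinearMap.id_apply, sub_self]
      · rw [Set.mem_singleton_iff] at hx
        subst hx
        refine Submodule.mem_sup_right ?_
        rw [LinearMap.mem_ker, nrm_sub, rho_eq_id_of_smul_eq hu, LinearMap.id_apply, sub_self]
    | one =>
      intro v
      rw [rho_one, LinearMap.id_apply, sub_self]
      exact W.zero_mem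
    | mul x y _ _ hx hy =>
      intro v
      have : rho (x * y) v - v = (rho x (rho y v) - rho y v) + (rho y v - v) := by
        rw [rho_mul_apply]; abel
      rw [this]
      exact W.add_mem (hx _) (hy _)
    | inv x _ hx =>
      intro v
      have : rho x⁻¹ v - v = -(rho x (rho x⁻¹ v) - rho x⁻¹ v) := by
        rw [← rho_mul_apply, mul_inv_cancel, rho_one, LinearMap.id_apply]; abel
      rw [this]
      exact W.neg_mem (hx _)
  rcases isEmpty_or_nonempty Q with hQ | ⟨⟨q₀⟩⟩
  · rw [Nat.card_eq_fintype_card, Fintype.card_eq_zero]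
    exact Nat.zero_le _
  -- the sum functional
  let sumF : (Q → ℂ) →ₗ[ℂ] ℂ := ∑ q : Q, LinearMap.proj q
  have hsumF : ∀ v : Q → ℂ, sumF v = ∑ q : Q, v q := by
    intro v
    simp only [sumF, LinearMap.sum_apply, LinearMap.proj_apply]
  have hsingle : ∀ q : Q, (Pi.single q (1 : ℂ) : Q → ℂ) - Pi.single q₀ 1 ∈ W := by
    intro q
    obtain ⟨g, hg⟩ := MulAction.exists_smul_eq G q₀ q
    have : (Pi.single q (1 : ℂ) : Q → ℂ) = rho g (Pi.single q₀ 1) := by
      funext x
      rw [rho_apply, Pi.single_apply, Pi.single_apply, inv_smul_eq_iff, hg]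
    rw [this]
    exact h1 g _
  have hker : LinearMap.ker sumF ≤ W := by
    intro v hv
    rw [LinearMap.mem_ker, hsumF] at hv
    have hv2 : v = ∑ q : Q, v q • ((Pi.single q (1 : ℂ) : Q → ℂ) - Pi.single q₀ 1) := by
      simp only [smul_sub, Finset.sum_sub_distrib, ← Finset.sum_smul, hv, zero_smul, sub_zero]
      funext x
      rw [Finset.sum_apply]
      simp only [Pi.smul_apply, Pi.single_apply, smul_eq_mul, mul_ite, mul_one, mul_zero]
      rw [Finset.sum_ite_eq]
      simp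
    rw [hv2]
    exact W.sum_mem fun q _ => W.smul_mem _ (hsingle q)
  have h2 := LinearMap.finrank_range_add_finrank_ker sumF
  rw [Module.finrank_fintype_fun_eq_card, ← Nat.card_eq_fintype_card] at h2
  have h3 : finrank ℂ (LinearMap.range sumF) ≤ 1 := by
    have := Submodule.finrank_le (LinearMap.range sumF)
    rwa [Module.finrank_self] at this
  have h4 : finrank ℂ (LinearMap.ker sumF) ≤ finrank ℂ W := Submodule.finrank_mono hker
  omega

end Fermat.Agent.S21.E1
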