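import Mathlib

/-!
# S21, piece E1 (part 1): the permutation representation on functions on a finite `G`-set

For a group `G` acting on a finite type `Q` we let `G` act on `V = Q → ℂ` by
`(ρ g v) q = v (g⁻¹ • q)` and collect the dimension counts needed for the bound on the dimension
of the space of parabolic homomorphisms.
-/

set_option autoImplicit false

noncomputable section

namespace Fermat.Agent.S21.E1

open Module

variable {G : Type*} [Group G] {Q : Type*} [MulAction G Q]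

/-- The permutation representation of `G` on functions on `Q`. -/
def rho (g : G) : (Q → ℂ) →ₗ[ℂ] (Q → ℂ) :=
  LinearMap.funLeft ℂ ℂ (fun q => g⁻¹ • q)

@[simp] theorem rho_apply (g : G) (v : Q → ℂ) (q : Q) : rho g v q = v (g⁻¹ • q) := rfl

theorem rho_one : rho (1 : G) = (LinearMap.id : (Q → ℂ) →ₗ[ℂ] (Q → ℂ)) := by
  ext v q
  simp

theorem rho_mul (g h : G) : (rho (g * h) : (Q → ℂ) →ₗ[ℂ] (Q → ℂ)) = rho g ∘ₗ rho h := by
  ext v q
  simp [mul_smul]

theorem rho_mul_apply (g h : G) (v : Q → ℂ) : rho (g * h) v = rho g (rho h v) := by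
  rw [rho_mul]; rfl

theorem rho_eq_id_of_smul_eq {g : G} (hg : ∀ q : Q, g • q = q) :
    (rho g : (Q → ℂ) →ₗ[ℂ] (Q → ℂ)) = LinearMap.id := by
  ext v q
  have : g⁻¹ • q = q := by
    conv_lhs => rw [← hg q]
    rw [inv_smul_smul]
  simp [this]

/-- The norm operator `∑_{j<n} ρ(g^j)`. -/
def nrm (g : G) (n : ℕ) : (Q → ℂ) →ₗ[ℂ] (Q → ℂ) :=
  ∑ j ∈ Finset.range n, rho (g ^ j)

theorem nrm_apply (g : G) (n : ℕ) (w : Q → ℂ) :
    nrm g n w = ∑ j ∈ Finset.range n, rho (g ^ j) w := by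
  simp [nrm, LinearMap.sum_apply]

theorem nrm_zero (g : G) : (nrm g 0 : (Q → ℂ) →ₗ[ℂ] (Q → ℂ)) = 0 := by
  simp [nrm]

theorem nrm_succ (g : G) (n : ℕ) :
    (nrm g (n + 1) : (Q → ℂ) →ₗ[ℂ] (Q → ℂ)) = nrm g n + rho (g ^ n) := by
  simp [nrm, Finset.sum_range_succ]

/-- `N (ρ_g v - v) = ρ_{g^n} v - v` (telescoping). -/
theorem nrm_sub (g : G) (n : ℕ) (v : Q → ℂ) :
    nrm g n (rho g v - v) = rho (g ^ n) v - v := by
  induction n with
  | zero => simp [nrm_zero, rho_one]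
  | succ n ih =>
    rw [nrm_succ, LinearMap.add_apply, ih, map_sub, ← rho_mul_apply, ← pow_succ]
    abel

/-- `ρ_g ∘ N = N` if `g^n` acts trivially. -/
theorem rho_comp_nrm {g : G} {n : ℕ} (hg : ∀ q : Q, g ^ n • q = q) (v : Q → ℂ) :
    rho g (nrm g n v) = nrm g n v := by
  have h1 : rho g (nrm g n v) - nrm g n v = nrm g n (rho g v - v) := by
    rw [map_sub]
    congr 1
    simp only [nrm, LinearMap.sum_apply, map_sum, ← rho_mul_apply]
    refine Finset.sum_congr rfl fun j _ => ?_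
    rw [← pow_succ', ← pow_succ]
  rw [nrm_sub, rho_eq_id_of_smul_eq hg, LinearMap.id_apply, sub_self] at h1
  exact sub_eq_zero.1 h1

theorem rho_pow_nrm {g : G} {n : ℕ} (hg : ∀ q : Q, g ^ n • q = q) (j : ℕ) (v : Q → ℂ) :
    rho (g ^ j) (nrm g n v) = nrm g n v := by
  induction j with
  | zero => rw [pow_zero, rho_one]; rfl
  | succ j ih => rw [pow_succ, rho_mul_apply, rho_comp_nrm hg, ih]

theorem nrm_nrm {g : G} {n : ℕ} (hg : ∀ q : Q, g ^ n • q = q) (v : Q → ℂ) :
    nrm g n (nrm g n v) = (n : ℂ) • nrm g n v := by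
  have h : ∀ w : Q → ℂ, nrm g n w = ∑ j ∈ Finset.range n, rho (g ^ j) w := fun w => by
    simp [nrm, LinearMap.sum_apply]
  rw [h (nrm g n v)]
  simp only [rho_pow_nrm hg]
  rw [Finset.sum_const, Finset.card_range, Nat.cast_smul_eq_nsmul]

end Fermat.Agent.S21.E1
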