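import Fermat.Agent.S21.Period
import Fermat.Agent.S21.Parabolic
import Fermat.Agent.S22.Cosets

/-!
# S21 (Eichler–Shimura): range of the period map and final assembly

* `periodMap_mem_parabolicHoms`, `range_periodHomPair_le` : the range of `periodHomPair` is
  contained in the parabolic homomorphisms.
* `finite_addMonoidHom` : `Hom(Γ₀(N), ℂ)` is finite dimensional.
* `result_of_injective_of_finrank_le` : the statement of S21 from injectivity and the dimension
  inequality.
-/

set_option autoImplicit false

namespace Fermat.Agent.S21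

open UpperHalfPlane ModularForm CongruenceSubgroup Filter Topology Matrix.SpecialLinearGroup
open ModularCurve ModularCurve.Period
open scoped MatrixGroups Manifold Pointwise

theorem periodMap_mem_parabolicHoms (N : ℕ) [NeZero N] (f : CuspForm (Gamma0 N) 2) :
    periodMap N f ∈ parabolicHoms ℂ (Gamma0 N) ℂ := by
  obtain ⟨F, hF⟩ := exists_hasEquivariantPrimitive N f
  rw [mem_parabolicHoms_iff]
  intro γ hγ
  rw [periodMap_eq f hF]
  exact period_eq_zero_of_trace_sq_eq_four N f F hF γ hγ

theorem periodHomPair_mem_parabolicHoms (N : ℕ) [NeZero N]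
    (x : CuspForm (Gamma0 N) 2 × CuspForm (Gamma0 N) 2) :
    periodHomPair N x ∈ parabolicHoms ℂ (Gamma0 N) ℂ := by
  obtain ⟨f, g⟩ := x
  rw [periodHomPair_apply]
  have hf := periodMap_mem_parabolicHoms N f
  have hg := periodMap_mem_parabolicHoms N g
  exact Submodule.add_mem _
    (Submodule.add_mem _ hf (charInvolution_mem_parabolicHoms N ℂ ℂ hf))
    (Submodule.sub_mem _ hg (charInvolution_mem_parabolicHoms N ℂ ℂ hg))

theorem range_periodHomPair_le (N : ℕ) [NeZero N] :
    LinearMap.range (periodHomPair N) ≤ parabolicHoms ℂ (Gamma0 N) ℂ := by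
  rintro _ ⟨x, rfl⟩
  exact periodHomPair_mem_parabolicHoms N x

/-- `Hom(Γ₀(N), ℂ)` is a finite dimensional vector space. -/
theorem finite_addMonoidHom (N : ℕ) [NeZero N] :
    Module.Finite ℂ (Additive (Gamma0 N) →+ ℂ) := by
  classical
  obtain ⟨T, hTmem, hTcl⟩ := Fermat.Agent.S22.Gamma0_exists_finite_generators N
  -- evaluation at the generators
  let ev : (Additive (Gamma0 N) →+ ℂ) →ₗ[ℂ] (T → ℂ) :=
    { toFun := fun φ t => φ (Additive.ofMul ⟨t.1, hTmem t.1 t.2⟩)
      map_add' := fun _ _ => rfl
      map_smul' := fun _ _ => rfl }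
  have hinj : Function.Injective ev := by
    rw [← LinearMap.ker_eq_bot, LinearMap.ker_eq_bot']
    intro φ hφ
    -- `φ` vanishes on the generators, hence on the closure
    have hgen : ∀ t (ht : t ∈ T), φ (Additive.ofMul ⟨t, hTmem t ht⟩) = 0 := fun t ht =>
      congrFun hφ ⟨t, ht⟩
    have hle : ∀ x, x ∈ Subgroup.closure (T : Set SL(2, ℤ)) → x ∈ Gamma0 N := fun x hx => by
      rw [← hTcl]; exact hx
    have hall : ∀ x (_ : x ∈ Subgroup.closure (T : Set SL(2, ℤ))),
        ∀ hx' : x ∈ Gamma0 N, φ (Additive.ofMul ⟨x, hx'⟩) = 0 := by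
      intro x hx
      induction hx using Subgroup.closure_induction with
      | mem x hx => intro _; exact hgen x hx
      | one => intro _; exact map_zero φ
      | mul x y hx hy ihx ihy =>
        intro hxy
        have : (Additive.ofMul (⟨x * y, hxy⟩ : Gamma0 N))
            = Additive.ofMul (⟨x, hle x hx⟩ : Gamma0 N)
              + Additive.ofMul (⟨y, hle y hy⟩ : Gamma0 N) := rfl
        rw [this, map_add, ihx, ihy, add_zero]
      | inv x hx ihx =>
        intro hxi
        have : (Additive.ofMul (⟨x⁻¹, hxi⟩ : Gamma0 N))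
            = - Additive.ofMul (⟨x, hle x hx⟩ : Gamma0 N) := rfl
        rw [this, map_neg, ihx, neg_zero]
    refine AddMonoidHom.ext fun γ => ?_
    have hγ : ((Additive.toMul γ : Gamma0 N) : SL(2, ℤ)) ∈ Subgroup.closure (T : Set SL(2, ℤ)) := by
      rw [hTcl]; exact (Additive.toMul γ : Gamma0 N).2
    have := hall _ hγ (Additive.toMul γ : Gamma0 N).2
    simpa using this
  exact Module.Finite.of_injective ev hinj

/-- **Final assembly.** S21 follows from injectivity of `periodHomPair` and the dimension
inequality `dim Hom_par ≤ 2 dim S₂`. -/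
theorem result_of_injective_of_finrank_le (N : ℕ) [NeZero N]
    (hinj : Function.Injective (periodHomPair N))
    (hdim : Module.finrank ℂ (parabolicHoms ℂ (Gamma0 N) ℂ)
      ≤ 2 * Module.finrank ℂ (CuspForm (Gamma0 N) 2)) :
    Function.Injective (periodHomPair N)
      ∧ LinearMap.range (periodHomPair N) = parabolicHoms ℂ (Gamma0 N) ℂ := by
  refine ⟨hinj, ?_⟩
  haveI := finite_addMonoidHom N
  haveI : Module.Finite ℂ (CuspForm (Gamma0 N) 2 × CuspForm (Gamma0 N) 2) :=
    Module.Finite.of_injective (periodHomPair N) hinj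
  haveI : Module.Finite ℂ (CuspForm (Gamma0 N) 2) :=
    Module.Finite.of_injective (LinearMap.inl ℂ (CuspForm (Gamma0 N) 2) (CuspForm (Gamma0 N) 2))
      LinearMap.inl_injective
  have hr : Module.finrank ℂ (LinearMap.range (periodHomPair N))
      = 2 * Module.finrank ℂ (CuspForm (Gamma0 N) 2) := by
    rw [LinearMap.finrank_range_of_inj hinj, Module.finrank_prod]
    ring
  refine Submodule.eq_of_le_of_finrank_le (range_periodHomPair_le N) ?_
  rw [hr]
  exact hdim

end Fermat.Agent.S21
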